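/-
Valuation helpers for the ramification chapter of TW/WP7 (helper73).
Mathlib-only.  `w : AddValuation L (WithTop ℤ)`.
-/
import Mathlib

set_option autoImplicit false

namespace Fermat.Agent.TW.Ram.ValSum73

open scoped BigOperators

variable {L : Type*} [Field L] (w : AddValuation L (WithTop ℤ))

/-- A nonzero element has an integer valuation. -/
theorem exists_int_of_ne_zero {x : L} (hx : x ≠ 0) : ∃ n : ℤ, w x = (n : WithTop ℤ) := by
  have h : w x ≠ ⊤ := (AddValuation.ne_top_iff w).mpr hx
  exact (WithTop.ne_top_iff_exists.mp h).imp fun n hn => hn.symm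

/-- The valuation of a finite sum whose nonzero terms have pairwise distinct valuations is the
infimum of the valuations. -/
theorem map_sum_of_distinct {ι : Type*} [DecidableEq ι] (s : Finset ι) (f : ι → L)
    (h : ∀ i ∈ s, ∀ j ∈ s, i ≠ j → f i ≠ 0 → f j ≠ 0 → w (f i) ≠ w (f j)) :
    w (∑ i ∈ s, f i) = s.inf fun i => w (f i) := by
  induction s using Finset.induction_on with
  | empty => simp
  | insert a s ha ih =>
    have ih' := ih (fun i hi j hj => h i (Finset.mem_insert_of_mem hi) j (Finset.mem_insert_of_mem hj))
    rw [Finset.sum_insert ha, Finset.inf_insert]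
    by_cases hne : w (f a) = w (∑ i ∈ s, f i)
    · -- both must be ⊤
      by_cases hfa : f a = 0
      · have h0 : ∑ i ∈ s, f i = 0 := by
          have : w (∑ i ∈ s, f i) = ⊤ := by rw [← hne, hfa]; exact AddValuation.map_zero w
          exact (AddValuation.top_iff w).mp this
        rw [hfa, h0, add_zero, ← ih', h0]
        simp
      · exfalso
        -- inf attained
        have hs : s.Nonempty := by
          by_contra hs
          rw [Finset.not_nonempty_iff_eq_empty] at hs
          subst hs
          simp only [Finset.sum_empty] at hne
          rw [AddValuation.map_zero] at hne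
          exact hfa ((AddValuation.top_iff w).mp hne)
        obtain ⟨j, hj, hjinf⟩ := Finset.exists_mem_eq_inf s hs (fun i => w (f i))
        have hfj : f j ≠ 0 := by
          intro h0
          have : w (f a) = ⊤ := by rw [hne, ih', hjinf, h0]; exact AddValuation.map_zero w
          exact hfa ((AddValuation.top_iff w).mp this)
        have haj : a ≠ j := fun e => ha (e ▸ hj)
        refine h a (Finset.mem_insert_self a s) j (Finset.mem_insert_of_mem hj) haj hfa hfj ?_
        rw [hne, ih', hjinf]
    · rw [AddValuation.map_add_of_distinct_val w hne, ih']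

/-- Lower bound for the valuation of a finite sum. -/
theorem le_map_sum {ι : Type*} (s : Finset ι) (f : ι → L) (g : WithTop ℤ)
    (h : ∀ i ∈ s, g ≤ w (f i)) : g ≤ w (∑ i ∈ s, f i) :=
  AddValuation.map_le_sum w h

end Fermat.Agent.TW.Ram.ValSum73
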