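/-
Abstract totally ramified Galois extensions (helper73, TW/WP7 chapter RAM).

Setting: a field `L`, a finite group `G` acting faithfully on `L` by field automorphisms, a
`ℤ`-valued additive valuation `w` on `L`, invariant under `G`, with a uniformiser `π` (`w π = 1`)
and such that every nonzero `G`-fixed element has valuation divisible by `|G|`
("`L / L^G` is totally ramified").  No completeness / henselianity is assumed.

Main results:
* `TRData.linearIndependent_pow`, `TRData.powBasis`: `1, π, …, π^(n-1)` is a basis of `L` over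
  `K = L^G`, `n = |G|`.
* `TRData.w_sum_pow`: `w (∑ a_j π^j) = min_j (w a_j + j)`.
* `TRData.exists_repr_of_int`: integral elements have integral coordinates.
* `TRData.depth_le`: `w (σ π - π) ≤ w (σ z - z)` for integral `z` (Serre, IV §1 Lemma 1).
-/
import Fermat.Agent.TW.Ram.ValSum73

set_option autoImplicit false

namespace Fermat.Agent.TW.Ram.TotRam73

open scoped BigOperators
open Fermat.Agent.TW.Ram.ValSum73

/-- Totally ramified data on `(G, L)`. -/
structure TRData (G L : Type*) [Group G] [Finite G] [Field L] [MulSemiringAction G L] where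
  /-- the normalised valuation of `L` -/
  w : AddValuation L (WithTop ℤ)
  w_smul : ∀ (σ : G) (x : L), w (σ • x) = w x
  /-- a uniformiser -/
  π : L
  w_π : w π = ((1 : ℤ) : WithTop ℤ)
  w_fixed : ∀ x : L, (∀ σ : G, σ • x = x) → x ≠ 0 →
    ∃ m : ℤ, w x = (((Nat.card G : ℤ) * m : ℤ) : WithTop ℤ)

namespace TRData

variable {G L : Type*} [Group G] [Finite G] [Field L] [MulSemiringAction G L]
variable (D : TRData G L)

/-- the fixed field -/
abbrev K : Subfield L := FixedPoints.subfield G L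

theorem π_ne_zero : D.π ≠ 0 := by
  intro h
  have := D.w_π
  rw [h, AddValuation.map_zero] at this
  exact WithTop.top_ne_coe this

theorem w_π_pow (j : ℕ) : D.w (D.π ^ j) = ((j : ℤ) : WithTop ℤ) := by
  rw [AddValuation.map_pow, D.w_π]
  induction j with
  | zero => simp
  | succ k ih => rw [succ_nsmul, ih]; push_cast; rfl

omit [MulSemiringAction G L] [Field L] in
theorem cardG_pos (G : Type*) [Group G] [Finite G] : 0 < (Nat.card G : ℤ) := by
  exact_mod_cast Nat.card_pos

theorem w_coe_K (a : K (G := G) (L := L)) (ha : (a : L) ≠ 0) :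
    ∃ m : ℤ, D.w (a : L) = (((Nat.card G : ℤ) * m : ℤ) : WithTop ℤ) :=
  D.w_fixed a (fun σ => a.2 σ) ha

/-- valuation of a monomial `a * π^j` with `a ∈ K` nonzero. -/
theorem w_monomial (a : K (G := G) (L := L)) (ha : (a : L) ≠ 0) (j : ℕ) :
    ∃ m : ℤ, D.w ((a : L) * D.π ^ j) = (((Nat.card G : ℤ) * m + j : ℤ) : WithTop ℤ) := by
  obtain ⟨m, hm⟩ := D.w_coe_K a ha
  refine ⟨m, ?_⟩
  rw [AddValuation.map_mul, hm, D.w_π_pow]
  norm_cast

/-- distinct monomials (with exponents `< |G|`) have distinct valuations -/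
theorem w_monomial_ne {a b : K (G := G) (L := L)} {i j : ℕ} (hi : i < Nat.card G)
    (hj : j < Nat.card G) (hij : i ≠ j) (ha : (a : L) * D.π ^ i ≠ 0)
    (hb : (b : L) * D.π ^ j ≠ 0) :
    D.w ((a : L) * D.π ^ i) ≠ D.w ((b : L) * D.π ^ j) := by
  have ha' : (a : L) ≠ 0 := left_ne_zero_of_mul ha
  have hb' : (b : L) ≠ 0 := left_ne_zero_of_mul hb
  obtain ⟨m, hm⟩ := D.w_monomial a ha' i
  obtain ⟨m', hm'⟩ := D.w_monomial b hb' j
  rw [hm, hm']
  intro h
  have h' : (Nat.card G : ℤ) * m + i = (Nat.card G : ℤ) * m' + j := by exact_mod_cast h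
  apply hij
  have h1 : ((i : ℤ)) % (Nat.card G : ℤ) = (j : ℤ) % (Nat.card G : ℤ) := by
    have e1 : (i : ℤ) = ((Nat.card G : ℤ) * m' + j) - (Nat.card G : ℤ) * m := by omega
    rw [e1]
    have : (Nat.card G : ℤ) * m' + j - (Nat.card G : ℤ) * m
        = j + (Nat.card G : ℤ) * (m' - m) := by ring
    rw [this, Int.add_mul_emod_self_left]
  rw [Int.emod_eq_of_lt (by positivity) (by exact_mod_cast hi),
    Int.emod_eq_of_lt (by positivity) (by exact_mod_cast hj)] at h1
  exact_mod_cast h1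

/-- `w (∑_{j<n} a_j π^j) = inf_j w (a_j π^j)` for `a_j ∈ K`. -/
theorem w_sum_pow (a : Fin (Nat.card G) → K (G := G) (L := L)) :
    D.w (∑ j, (a j : L) * D.π ^ (j : ℕ)) =
      Finset.univ.inf fun j => D.w ((a j : L) * D.π ^ (j : ℕ)) := by
  classical
  apply map_sum_of_distinct
  intro i _ j _ hij hi hj
  exact D.w_monomial_ne i.2 j.2 (fun h => hij (Fin.ext h)) hi hj

theorem linearIndependent_pow :
    LinearIndependent (K (G := G) (L := L)) fun j : Fin (Nat.card G) => D.π ^ (j : ℕ) := by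
  classical
  rw [Fintype.linearIndependent_iff]
  intro a ha
  by_contra hne
  obtain ⟨i, hi⟩ := not_forall.mp hne
  have hsum : ∑ j, (a j : L) * D.π ^ (j : ℕ) = 0 := by
    simpa [Subfield.smul_def] using ha
  have h1 := D.w_sum_pow a
  rw [hsum, AddValuation.map_zero] at h1
  have h2 : (Finset.univ.inf fun j => D.w ((a j : L) * D.π ^ (j : ℕ))) ≤
      D.w ((a i : L) * D.π ^ (i : ℕ)) := Finset.inf_le (Finset.mem_univ i)
  rw [← h1, top_le_iff, AddValuation.top_iff] at h2
  rcases mul_eq_zero.mp h2 with h | h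
  · exact hi (Subtype.ext h)
  · exact pow_ne_zero _ D.π_ne_zero h

variable [FaithfulSMul G L]

/-- The power basis `1, π, …, π^(n-1)` of `L` over `K = L^G`. -/
noncomputable def powBasis : Module.Basis (Fin (Nat.card G)) (K (G := G) (L := L)) L :=
  basisOfLinearIndependentOfCardEqFinrank D.linearIndependent_pow
    (by
      have := Fintype.ofFinite G
      rw [Fintype.card_fin, FixedPoints.finrank_eq_card, Nat.card_eq_fintype_card])

theorem powBasis_apply (j : Fin (Nat.card G)) : D.powBasis j = D.π ^ (j : ℕ) := by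
  simp [powBasis]

/-- Every element is a `K`-combination of `1, π, …, π^(n-1)`. -/
theorem exists_repr (z : L) : ∃ a : Fin (Nat.card G) → K (G := G) (L := L),
    z = ∑ j, (a j : L) * D.π ^ (j : ℕ) := by
  refine ⟨fun j => D.powBasis.repr z j, ?_⟩
  conv_lhs => rw [← D.powBasis.sum_repr z]
  refine Finset.sum_congr rfl fun j _ => ?_
  rw [D.powBasis_apply, Subfield.smul_def, smul_eq_mul]

/-- Integral elements have integral coordinates. -/
theorem exists_repr_of_int (z : L) (hz : 0 ≤ D.w z) :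
    ∃ a : Fin (Nat.card G) → K (G := G) (L := L),
      (∀ j, 0 ≤ D.w (a j : L)) ∧ z = ∑ j, (a j : L) * D.π ^ (j : ℕ) := by
  obtain ⟨a, ha⟩ := D.exists_repr z
  refine ⟨a, fun j => ?_, ha⟩
  by_cases h0 : (a j : L) = 0
  · rw [h0, AddValuation.map_zero]; exact le_top
  have h1 := D.w_sum_pow a
  rw [← ha] at h1
  have h2 : D.w z ≤ D.w ((a j : L) * D.π ^ (j : ℕ)) := by
    rw [h1]; exact Finset.inf_le (Finset.mem_univ j)
  obtain ⟨m, hm⟩ := D.w_coe_K (a j) h0
  rw [AddValuation.map_mul, hm, D.w_π_pow] at h2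
  have h3 : ((0 : ℤ) : WithTop ℤ) ≤ (((Nat.card G : ℤ) * m : ℤ) : WithTop ℤ) + ((j : ℕ) : ℤ) :=
    le_trans (by exact_mod_cast hz) h2
  rw [hm]
  have h4 : (0 : ℤ) ≤ (Nat.card G : ℤ) * m + ((j : ℕ) : ℤ) := by exact_mod_cast h3
  have hj : ((j : ℕ) : ℤ) < (Nat.card G : ℤ) := by exact_mod_cast j.2
  have hm0 : 0 ≤ m := by
    by_contra hneg
    have hneg : m < 0 := not_le.mp hneg
    have : (Nat.card G : ℤ) * m ≤ -(Nat.card G : ℤ) := by
      have := cardG_pos G
      nlinarith
    omega
  have : (0 : ℤ) ≤ (Nat.card G : ℤ) * m := mul_nonneg (cardG_pos G).le hm0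
  exact_mod_cast this

end TRData

end Fermat.Agent.TW.Ram.TotRam73
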