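/-
The depth function `i_G(σ) = w (σ π - π)` of a totally ramified Galois extension
(helper73, TW/WP7 chapter RAM).  Serre, Corps locaux IV §1.
-/
import Fermat.Agent.TW.Ram.TotRam73

set_option autoImplicit false

namespace Fermat.Agent.TW.Ram.Depth73

open scoped BigOperators
open Fermat.Agent.TW.Ram.ValSum73 Fermat.Agent.TW.Ram.TotRam73

variable {G L : Type*} [Group G] [Finite G] [Field L] [MulSemiringAction G L]

namespace TRDepth

variable (D : TRData G L)

/-- `i_G(σ) = w (σ π - π)`. -/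
noncomputable def depth (σ : G) : WithTop ℤ := D.w (σ • D.π - D.π)

theorem depth_def (σ : G) : depth D σ = D.w (σ • D.π - D.π) := rfl

theorem one_le_depth (σ : G) : ((1 : ℤ) : WithTop ℤ) ≤ depth D σ := by
  rw [depth_def]
  apply AddValuation.map_le_sub
  · rw [D.w_smul, D.w_π]
  · rw [D.w_π]

theorem zero_le_depth (σ : G) : (0 : WithTop ℤ) ≤ depth D σ :=
  le_trans (by exact_mod_cast (zero_le_one : (0 : ℤ) ≤ 1)) (one_le_depth D σ)

/-- `σ π^j - π^j` is divisible by `σ π - π` with integral quotient. -/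
theorem depth_le_pow (σ : G) (j : ℕ) : depth D σ ≤ D.w (σ • D.π ^ j - D.π ^ j) := by
  have h : σ • D.π ^ j - D.π ^ j =
      (∑ i ∈ Finset.range j, (σ • D.π) ^ i * D.π ^ (j - 1 - i)) * (σ • D.π - D.π) := by
    rw [smul_pow']
    exact (Commute.geom_sum₂_mul (Commute.all _ _) j).symm
  rw [h, AddValuation.map_mul, depth_def]
  have h0 : (0 : WithTop ℤ) ≤ D.w (∑ i ∈ Finset.range j, (σ • D.π) ^ i * D.π ^ (j - 1 - i)) := by
    apply AddValuation.map_le_sum
    intro i _
    rw [AddValuation.map_mul, AddValuation.map_pow, AddValuation.map_pow, D.w_smul, D.w_π]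
    have h1 : (0 : WithTop ℤ) ≤ i • ((1 : ℤ) : WithTop ℤ) :=
      nsmul_nonneg (by exact_mod_cast (zero_le_one : (0 : ℤ) ≤ 1)) i
    have h2 : (0 : WithTop ℤ) ≤ (j - 1 - i) • ((1 : ℤ) : WithTop ℤ) :=
      nsmul_nonneg (by exact_mod_cast (zero_le_one : (0 : ℤ) ≤ 1)) _
    exact add_nonneg h1 h2
  calc D.w (σ • D.π - D.π) = 0 + D.w (σ • D.π - D.π) := (zero_add _).symm
    _ ≤ _ := add_le_add h0 le_rfl

variable [FaithfulSMul G L]

/-- Serre IV §1 Lemma 1: `i_G(σ) ≤ w (σ z - z)` for every integral `z`. -/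
theorem depth_le (σ : G) (z : L) (hz : 0 ≤ D.w z) : depth D σ ≤ D.w (σ • z - z) := by
  obtain ⟨a, ha0, ha⟩ := D.exists_repr_of_int z hz
  have h : σ • z - z = ∑ j, (a j : L) * (σ • D.π ^ (j : ℕ) - D.π ^ (j : ℕ)) := by
    rw [ha, Finset.smul_sum, ← Finset.sum_sub_distrib]
    refine Finset.sum_congr rfl fun j _ => ?_
    rw [smul_mul', (a j).2 σ, mul_sub]
  rw [h]
  apply AddValuation.map_le_sum
  intro j _
  rw [AddValuation.map_mul]
  calc depth D σ = 0 + depth D σ := (zero_add _).symm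
    _ ≤ D.w (a j : L) + D.w (σ • D.π ^ (j : ℕ) - D.π ^ (j : ℕ)) :=
      add_le_add (ha0 j) (depth_le_pow D σ j)

/-- change of uniformiser -/
def withUnif (π' : L) (h : D.w π' = ((1 : ℤ) : WithTop ℤ)) : TRData G L :=
  { D with π := π', w_π := h }

/-- the depth does not depend on the uniformiser -/
theorem depth_eq_of_unif (σ : G) (π' : L) (h : D.w π' = ((1 : ℤ) : WithTop ℤ)) :
    D.w (σ • π' - π') = depth D σ := by
  apply le_antisymm
  · have h1 := depth_le (withUnif D π' h) σ D.π (by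
      show (0 : WithTop ℤ) ≤ D.w D.π
      rw [D.w_π]; exact_mod_cast (zero_le_one : (0 : ℤ) ≤ 1))
    exact h1
  · exact depth_le D σ π' (by rw [h]; exact_mod_cast (zero_le_one : (0 : ℤ) ≤ 1))

/-- `σ` fixing `π` is trivial. -/
theorem eq_one_of_smul_π (σ : G) (h : σ • D.π = D.π) : σ = 1 := by
  apply FaithfulSMul.eq_of_smul_eq_smul (α := L)
  intro z
  obtain ⟨a, ha⟩ := D.exists_repr z
  rw [one_smul, ha, Finset.smul_sum]
  refine Finset.sum_congr rfl fun j _ => ?_
  rw [smul_mul', (a j).2 σ, smul_pow', h]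

theorem depth_eq_top_iff (σ : G) : depth D σ = ⊤ ↔ σ = 1 := by
  rw [depth_def, AddValuation.top_iff, sub_eq_zero]
  constructor
  · exact eq_one_of_smul_π D σ
  · rintro rfl; rw [one_smul]

omit [FaithfulSMul G L] in
theorem depth_one : depth D (1 : G) = ⊤ := by
  rw [depth_def, one_smul, sub_self, AddValuation.map_zero]

omit [FaithfulSMul G L] in
theorem depth_mul_ge (σ τ : G) : min (depth D σ) (depth D τ) ≤ depth D (σ * τ) := by
  have h : (σ * τ) • D.π - D.π = σ • (τ • D.π - D.π) + (σ • D.π - D.π) := by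
    rw [mul_smul, smul_sub]; ring
  simp only [depth_def]
  rw [h]
  refine le_trans ?_ (AddValuation.map_add _ _ _)
  rw [D.w_smul, min_comm]

omit [FaithfulSMul G L] in
theorem depth_inv (σ : G) : depth D σ⁻¹ = depth D σ := by
  have h : σ⁻¹ • D.π - D.π = σ⁻¹ • (D.π - σ • D.π) := by
    rw [smul_sub, inv_smul_smul]
  rw [depth_def, h, D.w_smul, AddValuation.map_sub_swap]
  rfl

theorem depth_conj (σ τ : G) : depth D (τ * σ * τ⁻¹) = depth D σ := by
  have h : (τ * σ * τ⁻¹) • D.π - D.π = τ • (σ • (τ⁻¹ • D.π) - τ⁻¹ • D.π) := by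
    rw [smul_sub, smul_inv_smul, mul_smul, mul_smul]
  rw [depth_def, h, D.w_smul]
  exact depth_eq_of_unif D σ (τ⁻¹ • D.π) (by rw [D.w_smul, D.w_π])

omit [FaithfulSMul G L] in
/-- power of an element has at least the same depth -/
theorem depth_le_depth_pow (σ : G) (k : ℕ) : depth D σ ≤ depth D (σ ^ k) := by
  induction k with
  | zero => rw [pow_zero, depth_one]; exact le_top
  | succ k ih =>
    rw [pow_succ]
    exact le_trans (le_min ih le_rfl) (depth_mul_ge D (σ ^ k) σ)

end TRDepth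

end Fermat.Agent.TW.Ram.Depth73
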