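/-
Program TW (S56), work package WP7 (flat local bound), chapter Ram, helper90.

ABSTRACT HERBRAND THEORY IN MULTIPLICATIVE ("absolute") FORM.

A `LowerIndex G Γ₀` is a function `d : G → Γ₀` on a finite group with values in a linearly
ordered commutative group with zero, behaving like `σ ↦ v (σ x - x)` for a generator `x` of the
ring of integers of a Galois extension with group `G` and a `G`-invariant valuation `v`
(multiplicative notation, so SMALL values of `d σ` mean that `σ` is DEEP in the ramification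
filtration; `d 1 = 0`).

* `phi D r = ∏ σ, max (d σ) r`  is the (multiplicative, un-normalised) Herbrand function:
  if `P` is the minimal polynomial of `x` and `β` is at distance `r` from the nearest conjugate
  of `x` then `v (P β) = phi D r`.
* `upper D σ = phi D (d σ)` is the UPPER INDEX of `σ` (Fontaine's numbering, absolute units).
* `IsQuot D D' q` says that `D'` on `G'` is obtained from `D` on `G` along the surjection
  `q : G →* G'` by the quotient formula of Serre, Local Fields IV Prop. 3: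
  `d' σ' = ∏_{q σ = σ'} d σ`.

Main results (pure finite combinatorics, no fields):
* `IsQuot.d_eq_phiKer`  : `d' (q σ) = phiKer (min of d on the coset)`         (Serre IV Lemma 4)
* `IsQuot.phi_comp`     : `phi D r = phi D' (phiKer q D r)`                   (transitivity)
* `IsQuot.upper_le`, `IsQuot.exists_upper_eq` : `upper D' σ'` is the minimum of `upper D σ` over
  the fibre of `σ'`   (Herbrand's theorem `(G/H)^y = G^y H / H`).
* `IsQuot.upper_ker`    : for `τ ∈ ker q`, `upper D τ = phi D' (upperKer τ)`  (base change).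
-/
import Mathlib

set_option autoImplicit false
set_option linter.unusedSectionVars false

namespace Fermat.Agent.TW.Ram.HerbrandAbs90

open Finset

variable {Γ₀ : Type*} [LinearOrderedCommGroupWithZero Γ₀]
variable {G G' : Type*} [Group G] [Group G']

/-- Abstract lower ramification index function (multiplicative notation). -/
structure LowerIndex (G : Type*) [Group G] (Γ₀ : Type*) [LinearOrderedCommGroupWithZero Γ₀] where
  /-- `d σ` plays the role of `v (σ x - x)`. -/
  d : G → Γ₀
  d_one : d 1 = 0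
  d_inv : ∀ σ, d σ⁻¹ = d σ
  d_mul_le : ∀ σ τ, d (σ * τ) ≤ max (d σ) (d τ)

namespace LowerIndex

variable (D : LowerIndex G Γ₀)

/-- ultrametric equality: if `d σ < d τ` then `d (σ * τ) = d τ`. -/
theorem d_mul_eq_of_lt {σ τ : G} (h : D.d σ < D.d τ) : D.d (σ * τ) = D.d τ := by
  apply le_antisymm
  · exact (D.d_mul_le σ τ).trans (max_le h.le le_rfl)
  · have h1 : D.d τ ≤ max (D.d σ⁻¹) (D.d (σ * τ)) := by
      have := D.d_mul_le σ⁻¹ (σ * τ)
      rwa [inv_mul_cancel_left] at this
    rw [D.d_inv] at h1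
    rcases le_max_iff.mp h1 with h2 | h2
    · exact absurd h (not_lt.mpr h2)
    · exact h2

/-- Partial Herbrand function: product over a finite set of group elements. -/
def phiOn (S : Finset G) (r : Γ₀) : Γ₀ := ∏ σ ∈ S, max (D.d σ) r

theorem phiOn_mono (S : Finset G) : Monotone (D.phiOn S) := by
  intro r s hrs
  unfold phiOn
  exact Finset.prod_le_prod' fun σ _ => max_le_max le_rfl hrs

theorem phiOn_max (S : Finset G) (r s : Γ₀) :
    D.phiOn S (max r s) = max (D.phiOn S r) (D.phiOn S s) :=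
  (D.phiOn_mono S).map_max

variable [Fintype G]

/-- The (multiplicative) Herbrand function `r ↦ ∏ σ, max (d σ) r`. -/
def phi (r : Γ₀) : Γ₀ := D.phiOn Finset.univ r

theorem phi_mono : Monotone D.phi := D.phiOn_mono _

/-- The upper index of `σ` (Fontaine numbering, multiplicative absolute units). -/
def upper (σ : G) : Γ₀ := D.phi (D.d σ)

theorem upper_one : D.upper 1 = 0 := by
  unfold upper phi phiOn
  rw [D.d_one]
  exact Finset.prod_eq_zero (Finset.mem_univ (1 : G)) (by simp [D.d_one])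

end LowerIndex

section Quot

variable [Fintype G] [DecidableEq G']

/-- The fibre of `q` over `σ'`. -/
def fibre (q : G →* G') (σ' : G') : Finset G := Finset.univ.filter fun σ => q σ = σ'

@[simp] theorem mem_fibre (q : G →* G') (σ' : G') (σ : G) : σ ∈ fibre q σ' ↔ q σ = σ' := by
  simp [fibre]

/-- The Herbrand function of the kernel of `q`. -/
def phiKer (q : G →* G') (D : LowerIndex G Γ₀) (r : Γ₀) : Γ₀ := D.phiOn (fibre q 1) r

/-- The upper index of `τ` computed inside the kernel of `q`. -/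
def upperKer (q : G →* G') (D : LowerIndex G Γ₀) (τ : G) : Γ₀ := phiKer q D (D.d τ)

theorem phiKer_mono (q : G →* G') (D : LowerIndex G Γ₀) : Monotone (phiKer q D) :=
  D.phiOn_mono _

/-- `D'` is the quotient of `D` along `q` (Serre, Local Fields, IV Prop. 3). -/
structure IsQuot (D : LowerIndex G Γ₀) (D' : LowerIndex G' Γ₀) (q : G →* G') : Prop where
  surj : Function.Surjective q
  d_eq : ∀ σ' : G', D'.d σ' = ∏ σ ∈ fibre q σ', D.d σ

namespace IsQuot

variable {D : LowerIndex G Γ₀} {D' : LowerIndex G' Γ₀} {q : G →* G'}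

theorem fibre_nonempty (h : IsQuot D D' q) (σ' : G') : (fibre q σ').Nonempty := by
  obtain ⟨σ, hσ⟩ := h.surj σ'
  exact ⟨σ, by simp [hσ]⟩

omit [Fintype G] [DecidableEq G'] in
/-- Key coset lemma: if `σ₀` minimises `d` on its coset, then on that coset
`d σ = max (d σ₀) (d (σ₀⁻¹ σ))`. -/
theorem d_eq_max_of_min (D : LowerIndex G Γ₀) (q : G →* G') {σ₀ σ : G}
    (hmin : ∀ ρ, q ρ = q σ₀ → D.d σ₀ ≤ D.d ρ) (hσ : q σ = q σ₀) :
    D.d σ = max (D.d σ₀) (D.d (σ₀⁻¹ * σ)) := by
  have hle : D.d σ ≤ max (D.d σ₀) (D.d (σ₀⁻¹ * σ)) := by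
    have := D.d_mul_le σ₀ (σ₀⁻¹ * σ)
    rwa [mul_inv_cancel_left] at this
  apply le_antisymm hle
  apply max_le (hmin σ hσ)
  have h1 : D.d (σ₀⁻¹ * σ) ≤ max (D.d σ₀) (D.d σ) := by
    have := D.d_mul_le σ₀⁻¹ σ
    rwa [D.d_inv] at this
  rcases le_max_iff.mp h1 with h2 | h2
  · -- d (σ₀⁻¹ σ) ≤ d σ₀ ≤ d σ
    exact h2.trans (hmin σ hσ)
  · exact h2

/-- Reindexing a fibre by the kernel. -/
theorem prod_fibre_eq (q : G →* G') (σ₀ : G) (f : G → Γ₀) :
    ∏ σ ∈ fibre q (q σ₀), f σ = ∏ τ ∈ fibre q 1, f (σ₀ * τ) := by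
  symm
  apply Finset.prod_bij (fun τ _ => σ₀ * τ)
  · intro τ hτ
    simp only [mem_fibre] at hτ ⊢
    rw [map_mul, hτ, mul_one]
  · intro a _ b _ hab
    exact mul_left_cancel hab
  · intro σ hσ
    simp only [mem_fibre] at hσ
    refine ⟨σ₀⁻¹ * σ, ?_, by simp⟩
    simp only [mem_fibre]
    rw [map_mul, map_inv, hσ, inv_mul_cancel]
  · intro τ _
    rfl

/-- On the coset of a minimiser `σ₀`, the partial Herbrand product is `phiKer (max (d σ₀) r)`. -/
theorem prod_fibre_max (D : LowerIndex G Γ₀) (q : G →* G') {σ₀ : G}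
    (hmin : ∀ ρ, q ρ = q σ₀ → D.d σ₀ ≤ D.d ρ) (r : Γ₀) :
    ∏ σ ∈ fibre q (q σ₀), max (D.d σ) r = phiKer q D (max (D.d σ₀) r) := by
  rw [prod_fibre_eq q σ₀ (fun σ => max (D.d σ) r)]
  unfold phiKer LowerIndex.phiOn
  apply Finset.prod_congr rfl
  intro τ hτ
  simp only [mem_fibre] at hτ
  have hq : q (σ₀ * τ) = q σ₀ := by rw [map_mul, hτ, mul_one]
  rw [d_eq_max_of_min D q hmin hq, inv_mul_cancel_left]
  rw [max_assoc, max_left_comm]

/-- Serre IV Lemma 4: the lower index downstairs is the kernel Herbrand function of the minimal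
lower index on the coset. -/
theorem d_eq_phiKer (h : IsQuot D D' q) {σ₀ : G}
    (hmin : ∀ ρ, q ρ = q σ₀ → D.d σ₀ ≤ D.d ρ) :
    D'.d (q σ₀) = phiKer q D (D.d σ₀) := by
  rw [h.d_eq (q σ₀), prod_fibre_eq q σ₀ D.d]
  unfold phiKer LowerIndex.phiOn
  apply Finset.prod_congr rfl
  intro τ hτ
  simp only [mem_fibre] at hτ
  have hq : q (σ₀ * τ) = q σ₀ := by rw [map_mul, hτ, mul_one]
  rw [d_eq_max_of_min D q hmin hq, inv_mul_cancel_left, max_comm]

/-- Every coset contains a minimiser of `d`. -/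
theorem exists_min (h : IsQuot D D' q) (σ' : G') :
    ∃ σ₀, q σ₀ = σ' ∧ ∀ ρ, q ρ = q σ₀ → D.d σ₀ ≤ D.d ρ := by
  obtain ⟨σ₀, hσ₀, hmin⟩ := Finset.exists_min_image (fibre q σ') D.d (h.fibre_nonempty σ')
  simp only [mem_fibre] at hσ₀
  refine ⟨σ₀, hσ₀, fun ρ hρ => hmin ρ ?_⟩
  simp only [mem_fibre]
  rw [hρ, hσ₀]

variable [Fintype G']

/-- Transitivity of the Herbrand function: `φ_G = φ_{G/H} ∘ φ_H`. -/
theorem phi_comp (h : IsQuot D D' q) (r : Γ₀) : D.phi r = D'.phi (phiKer q D r) := by
  unfold LowerIndex.phi LowerIndex.phiOn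
  rw [← Finset.prod_fiberwise (s := Finset.univ) (g := fun σ => q σ)
    (f := fun σ => max (D.d σ) r)]
  apply Finset.prod_congr rfl
  intro σ' _
  obtain ⟨σ₀, hσ₀, hmin⟩ := h.exists_min σ'
  have e1 : ∏ σ ∈ Finset.univ.filter (fun σ => q σ = σ'), max (D.d σ) r
      = ∏ σ ∈ fibre q (q σ₀), max (D.d σ) r := by
    rw [hσ₀]; rfl
  rw [e1, prod_fibre_max D q hmin r, ← hσ₀, h.d_eq_phiKer hmin]
  exact (phiKer_mono q D).map_max

/-- Herbrand's theorem, part 1: the upper index can only decrease (= deeper) in quotients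
along the minimal element, i.e. `upper D' (q σ) ≤ upper D σ`. -/
theorem upper_le (h : IsQuot D D' q) (σ : G) : D'.upper (q σ) ≤ D.upper σ := by
  obtain ⟨σ₀, hσ₀, hmin⟩ := h.exists_min (q σ)
  unfold LowerIndex.upper
  rw [← hσ₀, h.d_eq_phiKer hmin, ← h.phi_comp]
  exact D.phi_mono (hmin σ hσ₀.symm)

/-- Herbrand's theorem, part 2: the upper index downstairs is attained on the fibre. -/
theorem exists_upper_eq (h : IsQuot D D' q) (σ' : G') :
    ∃ σ, q σ = σ' ∧ D'.upper σ' = D.upper σ := by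
  obtain ⟨σ₀, hσ₀, hmin⟩ := h.exists_min σ'
  refine ⟨σ₀, hσ₀, ?_⟩
  unfold LowerIndex.upper
  rw [← hσ₀, h.d_eq_phiKer hmin, ← h.phi_comp]

/-- Base change to the kernel: for `τ` in the kernel, the upper index in `G` is the Herbrand
function of the quotient applied to the upper index computed in the kernel. -/
theorem upper_ker (h : IsQuot D D' q) (τ : G) : D.upper τ = D'.phi (upperKer q D τ) := by
  unfold LowerIndex.upper upperKer
  exact h.phi_comp _

end IsQuot

end Quot

/-! ### Strict monotonicity, explicit values, bounded ramification -/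

namespace LowerIndex

variable [Fintype G] (D : LowerIndex G Γ₀)

theorem phi_eq_mul [DecidableEq G] (r : Γ₀) :
    D.phi r = r * ∏ σ ∈ Finset.univ.erase (1 : G), max (D.d σ) r := by
  unfold phi phiOn
  rw [← Finset.mul_prod_erase Finset.univ _ (Finset.mem_univ (1 : G)), D.d_one]
  congr 1
  exact max_eq_right zero_le

theorem phi_zero : D.phi 0 = 0 := by
  classical
  rw [phi_eq_mul, zero_mul]

theorem phi_pos {r : Γ₀} (hr : 0 < r) : 0 < D.phi r := by
  unfold phi phiOn
  apply zero_lt_iff.2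
  rw [Finset.prod_ne_zero_iff]
  intro σ _
  exact (lt_of_lt_of_le hr (le_max_right _ _)).ne'

theorem phi_strictMono : StrictMono D.phi := by
  classical
  intro a b hab
  have hb : 0 < b := lt_of_le_of_lt zero_le hab
  rw [phi_eq_mul, phi_eq_mul]
  have hA : ∏ σ ∈ Finset.univ.erase (1 : G), max (D.d σ) a
      ≤ ∏ σ ∈ Finset.univ.erase (1 : G), max (D.d σ) b :=
    Finset.prod_le_prod' fun σ _ => max_le_max le_rfl hab.le
  have hB : 0 < ∏ σ ∈ Finset.univ.erase (1 : G), max (D.d σ) b := by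
    apply zero_lt_iff.2
    rw [Finset.prod_ne_zero_iff]
    intro σ _
    exact (lt_of_lt_of_le hb (le_max_right _ _)).ne'
  calc a * ∏ σ ∈ Finset.univ.erase (1 : G), max (D.d σ) a
      ≤ a * ∏ σ ∈ Finset.univ.erase (1 : G), max (D.d σ) b := mul_le_mul' le_rfl hA
    _ < b * ∏ σ ∈ Finset.univ.erase (1 : G), max (D.d σ) b := by
        exact mul_lt_mul_of_pos_right hab hB

theorem phi_le_phi_iff {a b : Γ₀} : D.phi a ≤ D.phi b ↔ a ≤ b := D.phi_strictMono.le_iff_le

theorem phi_lt_phi_iff {a b : Γ₀} : D.phi a < D.phi b ↔ a < b := D.phi_strictMono.lt_iff_lt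

theorem phi_injective : Function.Injective D.phi := D.phi_strictMono.injective

/-- For `r` below all nontrivial lower indices, `phi r = r * (different)`. -/
theorem phi_of_le [DecidableEq G] {r : Γ₀} (hr : ∀ σ : G, σ ≠ 1 → r ≤ D.d σ) :
    D.phi r = r * ∏ σ ∈ Finset.univ.erase (1 : G), D.d σ := by
  rw [phi_eq_mul]
  congr 1
  apply Finset.prod_congr rfl
  intro σ hσ
  exact max_eq_left (hr σ (Finset.ne_of_mem_erase hσ))

/-- Ramification bounded by `s` (multiplicative notation: every nontrivial element has upper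
index at least `s`; in additive terms `G^(y) = 1` for `y > -log s`). -/
def BoundedBy (s : Γ₀) : Prop := ∀ σ : G, σ ≠ 1 → s ≤ D.upper σ

theorem BoundedBy.mono {s t : Γ₀} (h : D.BoundedBy s) (hts : t ≤ s) : D.BoundedBy t :=
  fun σ hσ => hts.trans (h σ hσ)

end LowerIndex

namespace IsQuot

variable [Fintype G] [Fintype G'] [DecidableEq G']
variable {D : LowerIndex G Γ₀} {D' : LowerIndex G' Γ₀} {q : G →* G'}

/-- Bounded ramification passes to quotients. -/
theorem boundedBy (h : IsQuot D D' q) {s : Γ₀} (hs : D.BoundedBy s) : D'.BoundedBy s := by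
  intro σ' hσ'
  obtain ⟨σ, hσ, heq⟩ := h.exists_upper_eq σ'
  rw [heq]
  apply hs
  rintro rfl
  exact hσ' (by rw [← hσ, map_one])

/-- Bounded ramification and base change to the kernel: the upper index computed in the kernel
satisfies `s ≤ phi D' (upperKer τ)`. -/
theorem boundedBy_ker (h : IsQuot D D' q) {s : Γ₀} (hs : D.BoundedBy s) {τ : G} (hτ : τ ≠ 1) :
    s ≤ D'.phi (upperKer q D τ) := by
  rw [← h.upper_ker]
  exact hs τ hτ

/-- Same, with the bound written as a value of the Herbrand function of the quotient. -/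
theorem le_upperKer_of_boundedBy (h : IsQuot D D' q) {s₁ : Γ₀} (hs : D.BoundedBy (D'.phi s₁))
    {τ : G} (hτ : τ ≠ 1) : s₁ ≤ upperKer q D τ :=
  D'.phi_le_phi_iff.1 (h.boundedBy_ker hs hτ)

/-- Bounded ramification passes to "composita": if `G` embeds into the product of two
quotients with ramification bounded by `s`, then `G` has ramification bounded by `s`. -/
theorem boundedBy_of_quots {G'' : Type*} [Group G''] [Fintype G''] [DecidableEq G'']
    {D'' : LowerIndex G'' Γ₀} {q' : G →* G''} (h : IsQuot D D' q) (h' : IsQuot D D'' q')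
    (hinj : ∀ σ : G, q σ = 1 → q' σ = 1 → σ = 1) {s : Γ₀}
    (hs : D'.BoundedBy s) (hs' : D''.BoundedBy s) : D.BoundedBy s := by
  intro σ hσ
  by_cases h1 : q σ = 1
  · have h2 : q' σ ≠ 1 := fun h2 => hσ (hinj σ h1 h2)
    exact (hs' _ h2).trans (h'.upper_le σ)
  · exact (hs _ h1).trans (h.upper_le σ)

end IsQuot

end Fermat.Agent.TW.Ram.HerbrandAbs90
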