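/-
Program TW (S56), work package WP7 (flat local bound), chapter Ram, helper90.

FIELD-LEVEL INPUT FOR THE ABSTRACT HERBRAND THEORY (`HerbrandAbs90`).

`L` is a field with a valuation `v : Valuation L Γ₀`, a finite group `G` acts on `L` by ring
automorphisms preserving `v`.

* `lowerIndexOf v hv x : LowerIndex G Γ₀`, `d σ = v (σ • x - x)`.
* `quotient_formula` : Serre, Local Fields, IV Prop. 3 in multiplicative absolute form
    `v (σ • y - y) = ∏ τ ∈ N, v ((σ * τ) • x - x)`
  for a subgroup `N`, `y` fixed by `N`, `y = g(x)` with `g` an integral `G`-invariant polynomial,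
  the conjugates `τ • x`, `τ ∈ N`, distinct, and `y` a "generator" of the integers of `L^N`
  at `σ` (`v (σ • z - z) ≤ v (σ • y - y)` for all integral `N`-invariant `z`).
  No discreteness, no completeness.
* `eval_conjPoly_val` : for `P = ∏ σ, (X - σ • x)` and any `β : L` (apply it in a bigger field),
  `v (P β) = phi (lowerIndexOf x) r` where `r` is the distance from `β` to the nearest conjugate.
-/
import Mathlib
import Fermat.Agent.TW.Ram.HerbrandAbs90

set_option autoImplicit false
set_option linter.unusedSectionVars false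

namespace Fermat.Agent.TW.Ram.HerbrandField90

open Polynomial Finset
open Fermat.Agent.TW.Ram.HerbrandAbs90

variable {L : Type*} [Field L] {Γ₀ : Type*} [LinearOrderedCommGroupWithZero Γ₀]
variable (v : Valuation L Γ₀)
variable {G : Type*} [Group G] [MulSemiringAction G L]

/-- `v` is invariant under the action of `G`. -/
def Invariant (G : Type*) [Group G] [MulSemiringAction G L] : Prop :=
  ∀ (g : G) (z : L), v (g • z) = v z

variable {v}

/-- The lower index function attached to a point `x`. -/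
def lowerIndexOf (hv : Invariant v G) (x : L) : LowerIndex G Γ₀ where
  d σ := v (σ • x - x)
  d_one := by simp
  d_inv σ := by
    rw [← hv σ (σ⁻¹ • x - x), smul_sub, smul_inv_smul, ← v.map_neg, neg_sub]
  d_mul_le σ τ := by
    have h : (σ * τ) • x - x = σ • (τ • x - x) + (σ • x - x) := by
      rw [mul_smul, smul_sub]; ring
    rw [h]
    refine (v.map_add _ _).trans ?_
    rw [hv, max_comm]

@[simp] theorem lowerIndexOf_d (hv : Invariant v G) (x : L) (σ : G) :
    (lowerIndexOf hv x).d σ = v (σ • x - x) := rfl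

theorem v_sub_le {Ω : Type*} [Field Ω] (w : Valuation Ω Γ₀) (a b : Ω) :
    w (a - b) ≤ max (w a) (w b) := by
  rw [sub_eq_add_neg]
  refine (w.map_add _ _).trans ?_
  rw [w.map_neg]

/-! ### The conjugate polynomial of a subgroup -/

variable [Fintype G]

/-- The elements of a subgroup as a finset. -/
noncomputable def sgFinset (N : Subgroup G) : Finset G := by
  classical exact Finset.univ.filter (· ∈ N)

@[simp] theorem mem_sgFinset (N : Subgroup G) (τ : G) : τ ∈ sgFinset N ↔ τ ∈ N := by
  classical simp [sgFinset]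

/-- `∏_{τ ∈ N} (X - τ • x)`. -/
noncomputable def conjPoly (N : Subgroup G) (x : L) : L[X] :=
  ∏ τ ∈ sgFinset N, (X - C (τ • x))

theorem conjPoly_monic (N : Subgroup G) (x : L) : (conjPoly N x).Monic :=
  monic_prod_of_monic _ _ fun _ _ => monic_X_sub_C _

theorem natDegree_conjPoly (N : Subgroup G) (x : L) :
    (conjPoly N x).natDegree = (sgFinset N).card :=
  natDegree_finsetProd_X_sub_C_eq_card _ _

/-- The ring endomorphism of `L` given by `σ`. -/
noncomputable abbrev act (σ : G) : L →+* L := MulSemiringAction.toRingHom G L σ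

theorem act_apply (σ : G) (z : L) : act σ z = σ • z := rfl

theorem map_conjPoly (N : Subgroup G) (x : L) (σ : G) :
    (conjPoly N x).map (act σ) = ∏ τ ∈ sgFinset N, (X - C ((σ * τ) • x)) := by
  unfold conjPoly
  rw [Polynomial.map_prod]
  apply Finset.prod_congr rfl
  intro τ _
  rw [Polynomial.map_sub, map_X, map_C, act_apply, mul_smul]

/-- Left translation by an element of `N` permutes `N`. -/
theorem prod_sgFinset_mul_left {M : Type*} [CommMonoid M] (N : Subgroup G) {ρ : G} (hρ : ρ ∈ N)
    (f : G → M) : ∏ τ ∈ sgFinset N, f (ρ * τ) = ∏ τ ∈ sgFinset N, f τ := by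
  apply Finset.prod_bij (fun τ _ => ρ * τ)
  · intro τ hτ
    rw [mem_sgFinset] at hτ ⊢
    exact N.mul_mem hρ hτ
  · intro a _ b _ hab
    exact mul_left_cancel hab
  · intro τ hτ
    rw [mem_sgFinset] at hτ
    exact ⟨ρ⁻¹ * τ, by rw [mem_sgFinset]; exact N.mul_mem (N.inv_mem hρ) hτ, by simp⟩
  · intro τ _
    rfl

theorem map_conjPoly_of_mem (N : Subgroup G) (x : L) {ρ : G} (hρ : ρ ∈ N) :
    (conjPoly N x).map (act ρ) = conjPoly N x := by
  rw [map_conjPoly]
  exact prod_sgFinset_mul_left N hρ (fun τ => (X - C (τ • x) : L[X]))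

theorem coeff_conjPoly_fixed (N : Subgroup G) (x : L) {ρ : G} (hρ : ρ ∈ N) (n : ℕ) :
    ρ • (conjPoly N x).coeff n = (conjPoly N x).coeff n := by
  have h := congrArg (fun p => p.coeff n) (map_conjPoly_of_mem N x hρ)
  simpa [coeff_map, act_apply] using h

/-- Polynomials with integral coefficients. -/
theorem prod_mem_lifts {ι : Type*} (s : Finset ι) (f : ι → L[X])
    (h : ∀ i ∈ s, f i ∈ Polynomial.lifts v.integer.subtype) :
    ∏ i ∈ s, f i ∈ Polynomial.lifts v.integer.subtype :=
  Subsemiring.prod_mem _ h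

theorem mem_lifts_iff (p : L[X]) :
    p ∈ Polynomial.lifts v.integer.subtype ↔ ∀ n, v (p.coeff n) ≤ 1 := by
  rw [lifts_iff_coeff_lifts]
  constructor
  · intro h n
    obtain ⟨a, ha⟩ := h n
    rw [← ha]
    exact a.2
  · intro h n
    exact ⟨⟨p.coeff n, h n⟩, rfl⟩

theorem X_sub_C_mem_lifts {a : L} (ha : v a ≤ 1) :
    (X - C a : L[X]) ∈ Polynomial.lifts v.integer.subtype := by
  rw [mem_lifts_iff]
  intro n
  rw [coeff_sub, coeff_X, coeff_C]
  by_cases h1 : 1 = n
  · have h0 : ¬ n = 0 := by omega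
    simp [h1, h0]
  · by_cases h0 : n = 0 <;> simp [h1, h0, ha]

theorem conjPoly_mem_lifts (hv : Invariant v G) (N : Subgroup G) {x : L} (hx : v x ≤ 1) :
    conjPoly N x ∈ Polynomial.lifts v.integer.subtype :=
  prod_mem_lifts _ _ fun τ _ => X_sub_C_mem_lifts (by rw [hv]; exact hx)

theorem eval_le_one {p : L[X]} (hp : ∀ n, v (p.coeff n) ≤ 1) {x : L} (hx : v x ≤ 1) :
    v (p.eval x) ≤ 1 := by
  rw [eval_eq_sum_range]
  apply v.map_sum_le
  intro n _
  rw [v.map_mul, v.map_pow]
  exact mul_le_one' (hp n) (pow_le_one' hx n)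

theorem eval_map_act (p : L[X]) (σ : G) (x : L) :
    (p.map (act σ)).eval (σ • x) = σ • p.eval x := by
  rw [← act_apply, ← act_apply, eval_map, eval₂_hom]

theorem eval_conjPoly_self (N : Subgroup G) (x : L) {τ : G} (hτ : τ ∈ N) :
    (conjPoly N x).eval (τ • x) = 0 := by
  unfold conjPoly
  rw [eval_prod]
  apply Finset.prod_eq_zero ((mem_sgFinset N τ).2 hτ)
  simp

/-- The value of `σ(f)` at `x`, where `f = conjPoly N x`. -/
theorem eval_map_conjPoly (N : Subgroup G) (x : L) (σ : G) :
    ((conjPoly N x).map (act σ)).eval x = ∏ τ ∈ sgFinset N, (x - (σ * τ) • x) := by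
  rw [map_conjPoly, eval_prod]
  apply Finset.prod_congr rfl
  intro τ _
  simp

theorem val_eval_map_conjPoly (N : Subgroup G) (x : L) (σ : G) :
    v (((conjPoly N x).map (act σ)).eval x) = ∏ τ ∈ sgFinset N, v ((σ * τ) • x - x) := by
  rw [eval_map_conjPoly, map_prod]
  apply Finset.prod_congr rfl
  intro τ _
  rw [← v.map_neg, neg_sub]

/-- First half of the quotient formula: `∏_{τ ∈ N} v (στx - x) ≤ v (σy - y)`. -/
theorem prod_le_of_gen (hv : Invariant v G) (N : Subgroup G) {x y : L} (hx : v x ≤ 1) (σ : G)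
    (hygen : ∀ z : L, (∀ τ ∈ N, τ • z = z) → v z ≤ 1 → v (σ • z - z) ≤ v (σ • y - y)) :
    ∏ τ ∈ sgFinset N, v ((σ * τ) • x - x) ≤ v (σ • y - y) := by
  rw [← val_eval_map_conjPoly]
  set f := conjPoly N x with hf
  have hfx : f.eval x = 0 := by
    have := eval_conjPoly_self N x (N.one_mem)
    rwa [one_smul] at this
  have hint : ∀ n, v (f.coeff n) ≤ 1 := (mem_lifts_iff f).1 (conjPoly_mem_lifts hv N hx)
  have key : (f.map (act σ)).eval x = ∑ n ∈ Finset.range (f.natDegree + 1),
      (σ • f.coeff n - f.coeff n) * x ^ n := by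
    have h1 : (f.map (act σ)).eval x = ∑ n ∈ Finset.range (f.natDegree + 1),
        (σ • f.coeff n) * x ^ n := by
      rw [eval_eq_sum_range' (n := f.natDegree + 1)]
      · apply Finset.sum_congr rfl
        intro n _
        rw [coeff_map, act_apply]
      · exact lt_of_le_of_lt (natDegree_map_le) (Nat.lt_succ_self _)
    have h2 : (0 : L) = ∑ n ∈ Finset.range (f.natDegree + 1), f.coeff n * x ^ n := by
      rw [← hfx, eval_eq_sum_range]
    rw [h1, ← sub_zero (∑ n ∈ Finset.range (f.natDegree + 1), σ • f.coeff n * x ^ n)]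
    conv_lhs => rw [h2]
    rw [← Finset.sum_sub_distrib]
    apply Finset.sum_congr rfl
    intro n _
    ring
  rw [key]
  apply v.map_sum_le
  intro n _
  rw [v.map_mul, v.map_pow]
  calc v (σ • f.coeff n - f.coeff n) * v x ^ n
      ≤ v (σ • y - y) * 1 := by
        apply mul_le_mul'
        · exact hygen _ (fun τ hτ => coeff_conjPoly_fixed N x hτ n) (hint n)
        · exact pow_le_one' hx n
    _ = v (σ • y - y) := mul_one _

/-- Second half of the quotient formula: `v (σy - y) ≤ ∏_{τ ∈ N} v (στx - x)`. -/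
theorem le_prod_of_eval (hv : Invariant v G) (N : Subgroup G) {x y : L} (hx : v x ≤ 1)
    (hyN : ∀ τ ∈ N, τ • y = y)
    (g : L[X]) (hg1 : ∀ n, v (g.coeff n) ≤ 1) (hgG : ∀ (σ : G) (n : ℕ), σ • g.coeff n = g.coeff n)
    (hgy : g.eval x = y)
    (hinj : ∀ τ ∈ N, τ • x = x → τ = 1) (σ : G) :
    v (σ • y - y) ≤ ∏ τ ∈ sgFinset N, v ((σ * τ) • x - x) := by
  classical
  rw [← val_eval_map_conjPoly]
  set f := conjPoly N x with hf
  have hy1 : v y ≤ 1 := by rw [← hgy]; exact eval_le_one hg1 hx
  -- the polynomial `g - y`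
  set g' : L[X] := g - C y with hg'
  have hg'1 : ∀ n, v (g'.coeff n) ≤ 1 := by
    intro n
    rw [hg', coeff_sub, coeff_C]
    by_cases h0 : n = 0
    · simp only [h0, if_true]
      exact v.map_sub_le (hg1 0) hy1
    · simp only [h0, if_false, sub_zero]
      exact hg1 n
  -- lift everything to the valuation subring
  obtain ⟨fA, hfA, hfAdeg, hfAmonic⟩ :=
    lifts_and_natDegree_eq_and_monic (conjPoly_mem_lifts hv N hx) (conjPoly_monic N x)
  obtain ⟨gA, hgA⟩ := (Polynomial.mem_lifts _).1 ((mem_lifts_iff g').2 hg'1)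
  -- monic division in `A[X]`
  have hdiv : gA %ₘ fA + fA * (gA /ₘ fA) = gA := modByMonic_add_div gA fA
  set h : L[X] := (gA /ₘ fA).map v.integer.subtype with hh
  set r : L[X] := (gA %ₘ fA).map v.integer.subtype with hr
  have hdivL : r + f * h = g' := by
    have := congrArg (Polynomial.map v.integer.subtype) hdiv
    rw [Polynomial.map_add, Polynomial.map_mul, hfA, hgA] at this
    exact this
  have hh1 : ∀ n, v (h.coeff n) ≤ 1 :=
    (mem_lifts_iff h).1 ((Polynomial.mem_lifts _).2 ⟨_, rfl⟩)
  -- the degree of `r`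
  have hcard : 0 < (sgFinset N).card := Finset.card_pos.2 ⟨1, (mem_sgFinset N 1).2 N.one_mem⟩
  have hfA1 : fA ≠ 1 := by
    intro h1
    have : fA.natDegree = 0 := by rw [h1]; exact natDegree_one
    rw [hfAdeg, natDegree_conjPoly] at this
    omega
  have hrdeg : r.natDegree < (sgFinset N).card := by
    calc r.natDegree ≤ (gA %ₘ fA).natDegree := natDegree_map_le
      _ < fA.natDegree := natDegree_modByMonic_lt gA hfAmonic hfA1
      _ = (sgFinset N).card := by rw [hfAdeg, natDegree_conjPoly]
  -- `r` vanishes at all conjugates `τ • x`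
  have hg'root : ∀ τ ∈ N, g'.eval (τ • x) = 0 := by
    intro τ hτ
    have hmap : g.map (act τ) = g := by
      ext n
      rw [coeff_map, act_apply, hgG]
    have := eval_map_act g τ x
    rw [hmap, hgy, hyN τ hτ] at this
    rw [hg', eval_sub, eval_C, this, sub_self]
  have hrroot : ∀ τ ∈ N, r.eval (τ • x) = 0 := by
    intro τ hτ
    have h1 : r = g' - f * h := by rw [← hdivL]; ring
    rw [h1, eval_sub, eval_mul, hg'root τ hτ, eval_conjPoly_self N x hτ, zero_mul, sub_zero]
  have hr0 : r = 0 := by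
    apply eq_zero_of_natDegree_lt_card_of_eval_eq_zero r (ι := {τ : G // τ ∈ sgFinset N})
      (f := fun τ => (τ : G) • x)
    · intro a b hab
      have ha := (mem_sgFinset N a).1 a.2
      have hb := (mem_sgFinset N b).1 b.2
      have : ((b : G)⁻¹ * a) • x = x := by
        rw [mul_smul]
        simp only at hab
        rw [hab, inv_smul_smul]
      have h1 := hinj _ (N.mul_mem (N.inv_mem hb) ha) this
      exact Subtype.ext (by rw [inv_mul_eq_one] at h1; exact h1.symm)
    · intro τ
      exact hrroot τ ((mem_sgFinset N τ).1 τ.2)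
    · rw [Fintype.card_coe]
      exact hrdeg
  -- conclude: g' = f * h, apply σ and evaluate at x
  have hfac : g' = f * h := by rw [← hdivL, hr0, zero_add]
  have hσ : (g'.map (act σ)).eval x = y - σ • y := by
    have hmap : g.map (act σ) = g := by
      ext n
      rw [coeff_map, act_apply, hgG]
    rw [hg', Polynomial.map_sub, map_C, hmap, eval_sub, eval_C, hgy, act_apply]
  have hσ2 : (g'.map (act σ)).eval x = (f.map (act σ)).eval x * (h.map (act σ)).eval x := by
    rw [hfac, Polynomial.map_mul, eval_mul]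
  have hh2 : v ((h.map (act σ)).eval x) ≤ 1 := by
    apply eval_le_one _ hx
    intro n
    rw [coeff_map, act_apply, hv]
    exact hh1 n
  calc v (σ • y - y) = v (y - σ • y) := by rw [← v.map_neg, neg_sub]
    _ = v ((f.map (act σ)).eval x) * v ((h.map (act σ)).eval x) := by
        rw [← hσ, hσ2, v.map_mul]
    _ ≤ v ((f.map (act σ)).eval x) * 1 := mul_le_mul' le_rfl hh2
    _ = v ((f.map (act σ)).eval x) := mul_one _

/-- **Quotient formula** (Serre, Local Fields, IV Prop. 3), multiplicative absolute form. -/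
theorem quotient_formula (hv : Invariant v G) (N : Subgroup G) {x y : L} (hx : v x ≤ 1)
    (hyN : ∀ τ ∈ N, τ • y = y)
    (g : L[X]) (hg1 : ∀ n, v (g.coeff n) ≤ 1) (hgG : ∀ (σ : G) (n : ℕ), σ • g.coeff n = g.coeff n)
    (hgy : g.eval x = y)
    (hinj : ∀ τ ∈ N, τ • x = x → τ = 1) (σ : G)
    (hygen : ∀ z : L, (∀ τ ∈ N, τ • z = z) → v z ≤ 1 → v (σ • z - z) ≤ v (σ • y - y)) :
    v (σ • y - y) = ∏ τ ∈ sgFinset N, v ((σ * τ) • x - x) :=
  le_antisymm (le_prod_of_eval hv N hx hyN g hg1 hgG hgy hinj σ) (prod_le_of_gen hv N hx σ hygen)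

/-! ### The lower index function on a quotient group and the `IsQuot` bridge -/

section Bridge

variable {G' : Type*} [Group G']

theorem smul_eq_of_map_eq (q : G →* G') {y : L} (hy : ∀ τ, q τ = 1 → τ • y = y) {σ₁ σ₂ : G}
    (h : q σ₁ = q σ₂) : σ₁ • y = σ₂ • y := by
  have h1 : q (σ₂⁻¹ * σ₁) = 1 := by rw [map_mul, map_inv, h, inv_mul_cancel]
  have h2 := hy _ h1
  rw [mul_smul] at h2
  rw [← h2, smul_inv_smul, h2]

/-- The lower index function induced on a quotient group by an element `y` fixed by the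
kernel. -/
noncomputable def lowerIndexQuot (hv : Invariant v G) (q : G →* G') (hq : Function.Surjective q)
    (y : L) (hy : ∀ τ, q τ = 1 → τ • y = y) : LowerIndex G' Γ₀ where
  d σ' := v (Function.surjInv hq σ' • y - y)
  d_one := by
    have h : q (Function.surjInv hq 1) = 1 := Function.surjInv_eq hq 1
    rw [hy _ h, sub_self, map_zero]
  d_inv σ' := by
    have h : q (Function.surjInv hq σ'⁻¹) = q (Function.surjInv hq σ')⁻¹ := by
      rw [map_inv, Function.surjInv_eq hq, Function.surjInv_eq hq]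
    rw [smul_eq_of_map_eq q hy h]
    exact (lowerIndexOf hv y).d_inv _
  d_mul_le σ' τ' := by
    have h : q (Function.surjInv hq (σ' * τ'))
        = q (Function.surjInv hq σ' * Function.surjInv hq τ') := by
      rw [map_mul, Function.surjInv_eq hq, Function.surjInv_eq hq, Function.surjInv_eq hq]
    rw [smul_eq_of_map_eq q hy h]
    exact (lowerIndexOf hv y).d_mul_le _ _

theorem lowerIndexQuot_d (hv : Invariant v G) (q : G →* G') (hq : Function.Surjective q)
    (y : L) (hy : ∀ τ, q τ = 1 → τ • y = y) (σ : G) :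
    (lowerIndexQuot hv q hq y hy).d (q σ) = v (σ • y - y) := by
  have h : q (Function.surjInv hq (q σ)) = q σ := Function.surjInv_eq hq _
  show v (Function.surjInv hq (q σ) • y - y) = _
  rw [smul_eq_of_map_eq q hy h]

variable [DecidableEq G']

theorem sgFinset_ker (q : G →* G') : sgFinset q.ker = fibre q 1 := by
  ext τ
  rw [mem_sgFinset, mem_fibre, MonoidHom.mem_ker]

/-- **Bridge**: a generator `x` upstairs and a generator `y = g(x)` of the fixed field of the
kernel give an `IsQuot` pair of lower index functions; hence all of Herbrand's theory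
(`HerbrandAbs90.IsQuot.*`) applies. -/
theorem isQuot_of_gen (hv : Invariant v G) (q : G →* G') (hq : Function.Surjective q)
    {x y : L} (hx : v x ≤ 1) (hy : ∀ τ, q τ = 1 → τ • y = y)
    (g : L[X]) (hg1 : ∀ n, v (g.coeff n) ≤ 1) (hgG : ∀ (σ : G) (n : ℕ), σ • g.coeff n = g.coeff n)
    (hgy : g.eval x = y)
    (hinj : ∀ τ, q τ = 1 → τ • x = x → τ = 1)
    (hygen : ∀ (σ : G) (z : L), (∀ τ, q τ = 1 → τ • z = z) → v z ≤ 1 →
      v (σ • z - z) ≤ v (σ • y - y)) :
    IsQuot (lowerIndexOf hv x) (lowerIndexQuot hv q hq y hy) q where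
  surj := hq
  d_eq σ' := by
    obtain ⟨σ, rfl⟩ := hq σ'
    rw [lowerIndexQuot_d, IsQuot.prod_fibre_eq q σ (lowerIndexOf hv x).d, ← sgFinset_ker]
    have := quotient_formula hv q.ker hx (fun τ hτ => hy τ (MonoidHom.mem_ker.1 hτ)) g hg1 hgG hgy
      (fun τ hτ => hinj τ (MonoidHom.mem_ker.1 hτ)) σ
      (fun z hz => hygen σ z (fun τ hτ => hz τ (MonoidHom.mem_ker.2 hτ)))
    rw [this]
    rfl

end Bridge

/-! ### The value of the conjugate polynomial at an arbitrary point -/

section Eval

variable {Ω : Type*} [Field Ω] (w : Valuation Ω Γ₀)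

/-- If the points `a σ`, `σ ∈ G`, of a valued field have mutual distances given by a lower index
function, `w (a σ - a τ) = d (τ⁻¹ σ)`, and `a σ₀` is a point nearest to `β`, then
`w (∏ σ, (β - a σ)) = phi D (w (β - a σ₀))`.  (With `a σ = σ • x`, the product is the value at
`β` of the minimal polynomial of `x`.) -/
theorem val_prod_sub_eq_phi (D : LowerIndex G Γ₀) (a : G → Ω)
    (ha : ∀ σ τ, w (a σ - a τ) = D.d (τ⁻¹ * σ)) (β : Ω) (σ₀ : G)
    (hmin : ∀ σ, w (β - a σ₀) ≤ w (β - a σ)) :
    w (∏ σ, (β - a σ)) = D.phi (w (β - a σ₀)) := by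
  rw [map_prod]
  unfold LowerIndex.phi LowerIndex.phiOn
  have key : ∀ σ, w (β - a σ) = max (D.d (σ₀⁻¹ * σ)) (w (β - a σ₀)) := by
    intro σ
    have hdec : β - a σ = (β - a σ₀) - (a σ - a σ₀) := by ring
    apply le_antisymm
    · rw [hdec]
      refine (v_sub_le w _ _).trans ?_
      rw [ha, max_comm]
    · apply max_le _ (hmin σ)
      rw [← ha]
      have hdec2 : a σ - a σ₀ = (β - a σ₀) - (β - a σ) := by ring
      rw [hdec2]
      refine (v_sub_le w _ _).trans ?_
      exact max_le (hmin σ) le_rfl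
  rw [Finset.prod_congr rfl (fun σ _ => key σ)]
  exact Fintype.prod_equiv (Equiv.mulLeft σ₀⁻¹) _ _ (fun σ => rfl)

end Eval

end Fermat.Agent.TW.Ram.HerbrandField90
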