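/-
helper90 — TW / WP7 / B7 support: restriction of lower index functions to subgroups, tame
quotients, and the abstract descent step of the Kummer–Fontaine argument
(pure finite combinatorics on top of `HerbrandAbs90`; multiplicative notation).

* `comap f D`            : restriction of a lower index function along a group hom.
* `upper_comap_ker`      : the upper index of the restriction to `ker q` is `upperKer q D`.
* `IsTame D' ω`, `phi_tame` : a tame quotient has `phi r = r * max ω r ^ (card - 1)`.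
* `boundedBy_comap_ker_of_tame` : `D` bounded by `c`, tame quotient `(ω, e0)`, `c ≤ ω ^ e0`
                              ⟹ the restriction to the kernel is bounded by `c * ω / ω ^ e0`.
* `descent`, `descent_quot` : same starting from two jointly injective quotients (compositum),
                              and then passing to a quotient of the kernel.
* `numerics_N2`, `numerics_N1` : the `Γ₀`-arithmetic that turns the Kummer break bounds of
                              `KummerBreak90` into `e0 ≤ i` resp. a contradiction.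
-/
import Mathlib
import Fermat.Agent.TW.Ram.HerbrandAbs90
import Fermat.Agent.TW.Ram.HerbrandField90

set_option autoImplicit false
set_option linter.unusedSectionVars false
set_option linter.unusedVariables false

namespace Fermat.Agent.TW.Ram.HerbrandTame90

open Finset
open Fermat.Agent.TW.Ram.HerbrandAbs90 Fermat.Agent.TW.Ram.HerbrandField90

variable {Γ₀ : Type*} [LinearOrderedCommGroupWithZero Γ₀]
variable {G G' H : Type*} [Group G] [Group G'] [Group H]

/-! ### Restriction along a group homomorphism -/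

/-- Restriction (pull-back) of a lower index function along a group homomorphism. -/
def comap (f : H →* G) (D : LowerIndex G Γ₀) : LowerIndex H Γ₀ where
  d σ := D.d (f σ)
  d_one := by rw [map_one, D.d_one]
  d_inv σ := by rw [map_inv, D.d_inv]
  d_mul_le σ τ := by rw [map_mul]; exact D.d_mul_le _ _

@[simp] theorem comap_d (f : H →* G) (D : LowerIndex G Γ₀) (σ : H) :
    (comap f D).d σ = D.d (f σ) := rfl

/-- The upper index of the restriction to `ker q` is the `upperKer` of `HerbrandAbs90`. -/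
theorem upper_comap_ker [Fintype G] [DecidableEq G'] (q : G →* G') [Fintype q.ker]
    (D : LowerIndex G Γ₀) (τ : q.ker) :
    (comap q.ker.subtype D).upper τ = upperKer q D (τ : G) := by
  unfold LowerIndex.upper LowerIndex.phi upperKer phiKer LowerIndex.phiOn
  symm
  refine Finset.prod_subtype (fibre q 1) (fun σ => ?_) (fun σ => max (D.d σ) (D.d (τ : G)))
  rw [mem_fibre, MonoidHom.mem_ker]

/-! ### Tame quotients -/

/-- A lower index function is tame of index `ω` if all non-trivial elements have index `ω`. -/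
def IsTame (D' : LowerIndex G' Γ₀) (ω : Γ₀) : Prop := ∀ σ' : G', σ' ≠ 1 → D'.d σ' = ω

theorem phi_tame [Fintype G'] [DecidableEq G'] {D' : LowerIndex G' Γ₀} {ω : Γ₀}
    (h : IsTame D' ω) (r : Γ₀) :
    D'.phi r = r * max ω r ^ (Fintype.card G' - 1) := by
  rw [LowerIndex.phi_eq_mul]
  congr 1
  rw [Finset.prod_congr rfl (fun σ hσ => by rw [h σ (Finset.ne_of_mem_erase hσ)]),
    Finset.prod_const, Finset.card_erase_of_mem (Finset.mem_univ _), Finset.card_univ]

/-- Tame quotients which are not necessarily totally ramified: all non-trivial elements have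
index `ω` (inertia) or `1` (outside inertia).  Then for `r ≤ 1`,
`phi r = r * max ω r ^ (e - 1)`, where `e` is the number of elements of index `≠ 1`
(the order of the inertia subgroup). -/
theorem phi_tame_of_le_one [Fintype G'] [DecidableEq G'] {D' : LowerIndex G' Γ₀} {ω : Γ₀}
    (h : ∀ σ' : G', σ' ≠ 1 → D'.d σ' = ω ∨ D'.d σ' = 1) {r : Γ₀} (hr : r ≤ 1) :
    D'.phi r
      = r * max ω r ^ ((Finset.univ.filter (fun σ' : G' => D'.d σ' ≠ 1)).card - 1) := by
  rw [LowerIndex.phi_eq_mul]
  congr 1
  have h1 : ∀ σ ∈ Finset.univ.erase (1 : G'),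
      max (D'.d σ) r = if D'.d σ ≠ 1 then max ω r else 1 := by
    intro σ hσ
    rcases h σ (Finset.ne_of_mem_erase hσ) with h2 | h2
    · by_cases h3 : D'.d σ = 1
      · rw [if_neg (not_not.2 h3), h3]; exact max_eq_left hr
      · rw [if_pos h3, h2]
    · rw [if_neg (not_not.2 h2), h2]; exact max_eq_left hr
  rw [Finset.prod_congr rfl h1, Finset.prod_ite, Finset.prod_const_one, mul_one,
    Finset.prod_const]
  congr 1
  have h2 : (Finset.univ.erase (1 : G')).filter (fun σ' : G' => D'.d σ' ≠ 1)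
      = (Finset.univ.filter (fun σ' : G' => D'.d σ' ≠ 1)).erase 1 := by
    ext σ
    simp only [Finset.mem_filter, Finset.mem_erase, Finset.mem_univ, true_and, and_true]
  rw [h2, Finset.card_erase_of_mem]
  rw [Finset.mem_filter, D'.d_one]
  exact ⟨Finset.mem_univ _, zero_ne_one⟩

theorem upper_tame [Fintype G'] [DecidableEq G'] {D' : LowerIndex G' Γ₀} {ω : Γ₀}
    (h : IsTame D' ω) {σ' : G'} (hσ' : σ' ≠ 1) :
    D'.upper σ' = ω ^ Fintype.card G' := by
  unfold LowerIndex.upper
  rw [phi_tame h, h σ' hσ', max_self, ← pow_succ']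
  congr 1
  have : 0 < Fintype.card G' := Fintype.card_pos
  omega

theorem boundedBy_tame [Fintype G'] [DecidableEq G'] {D' : LowerIndex G' Γ₀} {ω : Γ₀}
    (h : IsTame D' ω) : D'.BoundedBy (ω ^ Fintype.card G') :=
  fun σ' hσ' => (upper_tame h hσ').ge

/-! ### Reduction to the inertia subgroup -/

section Inertia

variable [Fintype G]

/-- The upper index of an element of a subgroup `I` containing all `σ` with `d σ < 1`
(the inertia subgroup), computed in `G`, equals the one computed in `I`, provided `d ≤ 1`. -/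
theorem upper_eq_upper_comap_of_inertia (D : LowerIndex G Γ₀) (hle : ∀ σ, D.d σ ≤ 1)
    (I : Subgroup G) [Fintype I] (hI : ∀ σ, D.d σ < 1 → σ ∈ I) (τ : I) :
    D.upper (τ : G) = (comap I.subtype D).upper τ := by
  classical
  unfold LowerIndex.upper LowerIndex.phi LowerIndex.phiOn
  have h1 : ∏ σ : G, max (D.d σ) (D.d (τ : G))
      = ∏ σ ∈ Finset.univ.filter (fun σ : G => σ ∈ I), max (D.d σ) (D.d (τ : G)) := by
    symm
    apply Finset.prod_subset (Finset.filter_subset _ _)
    intro σ _ hσ
    rw [Finset.mem_filter, not_and] at hσ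
    have h2 : D.d σ = 1 := by
      refine le_antisymm (hle σ) (not_lt.1 fun h3 => hσ (Finset.mem_univ _) (hI σ h3))
    rw [h2]
    exact max_eq_left (hle _)
  rw [h1]
  refine Finset.prod_subtype _ (fun σ => ?_) (fun σ => max (D.d σ) (D.d (τ : G)))
  rw [Finset.mem_filter]
  exact ⟨fun h => h.2, fun h => ⟨Finset.mem_univ _, h⟩⟩

/-- Elements outside the inertia subgroup have upper index `1`. -/
theorem upper_eq_one_of_d_eq_one (D : LowerIndex G Γ₀) (hle : ∀ σ, D.d σ ≤ 1) {τ : G}
    (hτ : D.d τ = 1) : D.upper τ = 1 := by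
  unfold LowerIndex.upper LowerIndex.phi LowerIndex.phiOn
  rw [hτ]
  exact Finset.prod_eq_one fun σ _ => max_eq_right (hle σ)

/-- Bounded ramification can be checked on the inertia subgroup. -/
theorem boundedBy_of_inertia (D : LowerIndex G Γ₀) (hle : ∀ σ, D.d σ ≤ 1)
    (I : Subgroup G) [Fintype I] (hI : ∀ σ, D.d σ < 1 → σ ∈ I) {s : Γ₀} (hs1 : s ≤ 1)
    (hs : (comap I.subtype D).BoundedBy s) : D.BoundedBy s := by
  intro τ hτ
  by_cases h1 : D.d τ < 1
  · have h2 := upper_eq_upper_comap_of_inertia D hle I hI ⟨τ, hI τ h1⟩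
    rw [h2]
    exact hs _ (fun h3 => hτ (congrArg Subtype.val h3))
  · rw [upper_eq_one_of_d_eq_one D hle (le_antisymm (hle τ) (not_lt.1 h1))]
    exact hs1

end Inertia

/-! ### Descent to the kernel of a tame quotient -/

section Descent

variable [Fintype G] [Fintype G'] [DecidableEq G']
variable {D : LowerIndex G Γ₀} {D' : LowerIndex G' Γ₀} {q : G →* G'}

/-- If `D` has ramification bounded by `c` and `D'` is a tame quotient of index `ω` and order
`e0` with `c ≤ ω ^ e0`, then the restriction of `D` to the kernel has ramification bounded by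
`c * ω / ω ^ e0`.  (Additively: `u_H ≥ ... ` : the upper numbering of the kernel is shifted by
`1 - 1/e0`.) -/
theorem boundedBy_comap_ker_of_tame (h : IsQuot D D' q) {c ω : Γ₀} (hD : D.BoundedBy c)
    (htame : IsTame D' ω) (hω0 : ω ≠ 0) (hc : c ≤ ω ^ Fintype.card G') [Fintype q.ker] :
    (comap q.ker.subtype D).BoundedBy (c * ω / ω ^ Fintype.card G') := by
  intro τ hτ
  have hτ' : (τ : G) ≠ 1 := fun h1 => hτ (Subtype.ext h1)
  rw [upper_comap_ker]
  have h1 := h.boundedBy_ker hD hτ'
  rw [phi_tame htame] at h1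
  have hpos : 0 < ω ^ Fintype.card G' := zero_lt_iff.2 (pow_ne_zero _ hω0)
  have hcard : Fintype.card G' - 1 + 1 = Fintype.card G' := by
    have : 0 < Fintype.card G' := Fintype.card_pos
    omega
  rw [div_le_iff₀ hpos]
  rcases le_or_gt (upperKer q D (τ : G)) ω with hU | hU
  · rw [max_eq_left hU] at h1
    calc c * ω ≤ upperKer q D (τ : G) * ω ^ (Fintype.card G' - 1) * ω := mul_le_mul' h1 le_rfl
      _ = upperKer q D (τ : G) * ω ^ Fintype.card G' := by rw [mul_assoc, ← pow_succ, hcard]
  · calc c * ω ≤ ω ^ Fintype.card G' * ω := mul_le_mul' hc le_rfl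
      _ ≤ ω ^ Fintype.card G' * upperKer q D (τ : G) := mul_le_mul' le_rfl hU.le
      _ = upperKer q D (τ : G) * ω ^ Fintype.card G' := mul_comm _ _

variable {G_L : Type*} [Group G_L] [Fintype G_L] [DecidableEq G_L]

/-- **Descent.** `G` embeds into `G_L × G'` (compositum), `D_L` is bounded by `c`, `D'` is tame
`(ω, e0)` with `c ≤ ω ^ e0`: then the restriction of `D` to `ker (G → G')` is bounded by
`c * ω / ω ^ e0`. -/
theorem descent {D_L : LowerIndex G_L Γ₀} {qL : G →* G_L} (hL : IsQuot D D_L qL)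
    (h : IsQuot D D' q) (hinj : ∀ σ : G, qL σ = 1 → q σ = 1 → σ = 1) {c ω : Γ₀}
    (hbL : D_L.BoundedBy c) (htame : IsTame D' ω) (hω0 : ω ≠ 0)
    (hc : c ≤ ω ^ Fintype.card G') [Fintype q.ker] :
    (comap q.ker.subtype D).BoundedBy (c * ω / ω ^ Fintype.card G') :=
  boundedBy_comap_ker_of_tame h
    (hL.boundedBy_of_quots h hinj hbL (LowerIndex.BoundedBy.mono _ (boundedBy_tame htame) hc)) htame hω0 hc

/-- **Descent, then a quotient of the kernel** (e.g. a cyclic layer of degree `p`). -/
theorem descent_quot {D_L : LowerIndex G_L Γ₀} {qL : G →* G_L} (hL : IsQuot D D_L qL)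
    (h : IsQuot D D' q) (hinj : ∀ σ : G, qL σ = 1 → q σ = 1 → σ = 1) {c ω : Γ₀}
    (hbL : D_L.BoundedBy c) (htame : IsTame D' ω) (hω0 : ω ≠ 0)
    (hc : c ≤ ω ^ Fintype.card G') [Fintype q.ker]
    {C : Type*} [Group C] [Fintype C] [DecidableEq C] {D'' : LowerIndex C Γ₀} {q'' : q.ker →* C}
    (h'' : IsQuot (comap q.ker.subtype D) D'' q'') :
    D''.BoundedBy (c * ω / ω ^ Fintype.card G') :=
  h''.boundedBy (descent hL h hinj hbL htame hω0 hc)

end Descent

/-! ### Field bridge: restriction of `lowerIndexOf` to a subgroup -/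

section FieldBridge

variable {L : Type*} [Field L] {v : Valuation L Γ₀} [MulSemiringAction G L]

/-- Invariance of the valuation restricts to subgroups. -/
theorem invariant_subgroup (hv : Invariant v G) (N : Subgroup G) : Invariant v N :=
  fun g z => hv (g : G) z

/-- The restriction of `lowerIndexOf hv x` to a subgroup `N` is the lower index function of `x`
for the action of `N`; hence `isQuot_of_gen` can be applied to the group `↥N` and the result
combined with `descent_quot`. -/
theorem comap_subtype_lowerIndexOf (hv : Invariant v G) (N : Subgroup G) (x : L) :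
    comap N.subtype (lowerIndexOf hv x) = lowerIndexOf (invariant_subgroup hv N) x := rfl

end FieldBridge

/-! ### Numerics -/

/-- The arithmetic closing the Kummer–Fontaine argument, case N2: `P = v p`, `ω = v π`
(`ω ^ e0 = P`), `Z = v (ζ - 1)` (`Z ^ (p-1) = P`), `c` the Fontaine bound (`P ^ p ≤ c ^ (p-1)`),
`U` an upper index with `c * ω / ω ^ e0 ≤ U` (descent) and `U * ω ^ i ≤ Z ^ p * ω` (Kummer break).
Then `e0 ≤ i`. -/
theorem numerics_N2 {P ω Z c U : Γ₀} {p e0 i : ℕ} (hp : 2 ≤ p) (hω0 : ω ≠ 0) (hω1 : ω < 1)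
    (hP : ω ^ e0 = P) (hZ : Z ^ (p - 1) = P) (hc : P ^ p ≤ c ^ (p - 1))
    (hU : c * ω / ω ^ e0 ≤ U) (hKB : U * ω ^ i ≤ Z ^ p * ω) : e0 ≤ i := by
  have hP0 : P ≠ 0 := by rw [← hP]; exact pow_ne_zero _ hω0
  have hPpos : 0 < P := zero_lt_iff.2 hP0
  have hωpos : 0 < ω := zero_lt_iff.2 hω0
  have hp1 : p - 1 ≠ 0 := by omega
  rw [hP] at hU
  -- `c * ω ^ i ≤ Z ^ p * P`
  have h1 : c * ω ^ i ≤ Z ^ p * P := by
    have h2 : c * ω / P * ω ^ i ≤ Z ^ p * ω := (mul_le_mul' hU le_rfl).trans hKB
    have h3 : c * ω / P * ω ^ i = c * ω ^ i * (ω / P) := by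
      rw [mul_div_assoc]; ac_rfl
    rw [h3] at h2
    have h4 : c * ω ^ i * (ω / P) * (P / ω) ≤ Z ^ p * ω * (P / ω) := mul_le_mul' h2 le_rfl
    have h5 : ω / P * (P / ω) = 1 := by
      rw [div_mul_div_comm, mul_comm, div_self (mul_ne_zero hP0 hω0)]
    have h6 : ω * (P / ω) = P := by
      rw [mul_div_assoc', mul_comm, mul_div_assoc, div_self hω0, mul_one]
    rwa [mul_assoc, h5, mul_one, mul_assoc, h6] at h4
  -- raise to the power `p - 1`
  have h2 : c ^ (p - 1) * (ω ^ i) ^ (p - 1) ≤ P ^ p * P ^ (p - 1) := by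
    have h := pow_le_pow_left' h1 (p - 1)
    have e1 : (Z ^ p) ^ (p - 1) = P ^ p := by
      rw [← pow_mul, mul_comm p (p - 1), pow_mul, hZ]
    rwa [mul_pow, mul_pow, e1] at h
  have h3 : P ^ p * (ω ^ i) ^ (p - 1) ≤ P ^ p * P ^ (p - 1) :=
    (mul_le_mul' hc le_rfl).trans h2
  have h4 : (ω ^ i) ^ (p - 1) ≤ P ^ (p - 1) :=
    (mul_le_mul_iff_right₀ (pow_pos hPpos p)).1 h3
  have h5 : ω ^ i ≤ ω ^ e0 := by
    rw [hP]; exact (pow_le_pow_iff_left₀ zero_le zero_le hp1).1 h4
  exact (pow_le_pow_iff_right_of_lt_one₀ hωpos hω1).1 h5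

/-- Case N1: `U ≤ Z ^ p * ω` is impossible (for `e0 ≠ 0`). -/
theorem numerics_N1 {P ω Z c U : Γ₀} {p e0 : ℕ} (hp : 2 ≤ p) (hω0 : ω ≠ 0) (hω1 : ω < 1)
    (he0 : e0 ≠ 0) (hP : ω ^ e0 = P) (hZ : Z ^ (p - 1) = P) (hc : P ^ p ≤ c ^ (p - 1))
    (hU : c * ω / ω ^ e0 ≤ U) (hKB : U ≤ Z ^ p * ω) : False := by
  have := numerics_N2 (i := 0) hp hω0 hω1 hP hZ hc hU (by rwa [pow_zero, mul_one])
  omega

end Fermat.Agent.TW.Ram.HerbrandTame90
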