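/-
helper90 — TW / WP7 / B6 KBRK : the Kummer break (abstract valued field form).

Setting: a field `M` with a valuation `v : Valuation M Γ₀` (multiplicative), a subfield `K1`
(given as `[Field K1] [Algebra K1 M]`, `ι = algebraMap K1 M`) on which the valuation is discrete
with uniformizer `π`, a prime `p`, an element `α : M` with `α ^ p = ι a`, generating `M` over
`K1`, and a ring endomorphism `s` of `M` fixing `K1` with `s α = ι ζ * α`, `ζ ^ p = 1`.

* `core`: general estimate for a totally ramified degree-`p` extension generated by an element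
  `θ` whose valuation is "prime to `p`".
* `break_of_val_prime` (case N1): `v (ι a) = v (ι π) ^ j`, `p ∤ j`. Then for all integral `z`:
  `v (s z - z) ^ p ≤ v (ι ζ - 1) ^ p * v (ι π)`.
* `break_of_unit_level` (case N2): `a = 1 + π ^ i * u`, `v (ι u) = 1`, `p ∤ i`,
  `v (ι ζ - 1) ^ p ≤ v (ι π) ^ i`. Then for all integral `z`:
  `v (s z - z) ^ p * v (ι π) ^ i ≤ v (ι ζ - 1) ^ p * v (ι π)`.
  (additively: `p * i(s) ≥ 1/e1 + p/(p-1) - i/e1 = (t+1)/e1`, `t = p e1/(p-1) - i`.)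
* group-action forms and the consequence for the upper index in a group of order `p`.
-/
import Mathlib
import Fermat.Agent.TW.Ram.HerbrandField90

set_option autoImplicit false
set_option linter.unusedSectionVars false
set_option linter.unusedVariables false

namespace Fermat.Agent.TW.Ram.KummerBreak90

open Polynomial Finset
open Fermat.Agent.TW.Ram.HerbrandAbs90 Fermat.Agent.TW.Ram.HerbrandField90

variable {M : Type*} [Field M] {Γ₀ : Type*} [LinearOrderedCommGroupWithZero Γ₀]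
variable (v : Valuation M Γ₀)

/-! ### Valuation lemmas -/

theorem v_pow_succ_sub_pow_succ_le (x y : M) (k : ℕ) :
    v (x ^ (k + 1) - y ^ (k + 1)) ≤ v (x - y) * (max (v x) (v y)) ^ k := by
  induction k with
  | zero => simp
  | succ k ih =>
    have h : x ^ (k + 1 + 1) - y ^ (k + 1 + 1)
        = x * (x ^ (k + 1) - y ^ (k + 1)) + (x - y) * y ^ (k + 1) := by ring
    rw [h]
    apply v.map_add_le
    · rw [v.map_mul]
      calc v x * v (x ^ (k + 1) - y ^ (k + 1))
          ≤ max (v x) (v y) * (v (x - y) * max (v x) (v y) ^ k) :=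
            mul_le_mul' (le_max_left _ _) ih
        _ = v (x - y) * max (v x) (v y) ^ (k + 1) := by rw [pow_succ]; ac_rfl
    · rw [v.map_mul, v.map_pow]
      exact mul_le_mul' le_rfl (pow_le_pow_left' (le_max_right _ _) _)

theorem le_v_sum_of_distinct {κ : Type*} [DecidableEq κ] (s : Finset κ) (f : κ → M)
    (hdist : ∀ i ∈ s, ∀ j ∈ s, i ≠ j → f i ≠ 0 → v (f i) ≠ v (f j)) (k : κ) (hk : k ∈ s) :
    v (f k) ≤ v (∑ i ∈ s, f i) := by
  obtain ⟨j, hj, hmax⟩ := Finset.exists_max_image s (fun i => v (f i)) ⟨k, hk⟩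
  have key : v (∑ i ∈ s, f i) = v (f j) := by
    by_cases hj0 : f j = 0
    · have hall : ∀ i ∈ s, f i = 0 := by
        intro i hi
        have h1 := hmax i hi
        rw [hj0, map_zero] at h1
        exact v.zero_iff.1 (le_antisymm h1 zero_le)
      rw [Finset.sum_eq_zero hall, hj0]
    · apply v.map_sum_eq_of_lt hj
      intro i hi
      rw [Finset.mem_sdiff, Finset.mem_singleton] at hi
      apply lt_of_le_of_ne (hmax i hi.1)
      by_cases hi0 : f i = 0
      · rw [hi0, map_zero]; exact (v.ne_zero_iff.2 hj0).symm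
      · exact hdist i hi.1 j hj hi.2 hi0
  rw [key]
  exact hmax k hk

/-! ### Powers in `Γ₀` -/

theorem eq_of_pow_eq {a b : Γ₀} {n : ℕ} (hn : n ≠ 0) (h : a ^ n = b ^ n) : a = b :=
  le_antisymm ((pow_le_pow_iff_left₀ zero_le zero_le hn).1 h.le)
    ((pow_le_pow_iff_left₀ zero_le zero_le hn).1 h.ge)

theorem zpow_nonneg_of_le_one {a : Γ₀} (ha0 : a ≠ 0) (ha1 : a < 1) {m : ℤ} (h : a ^ m ≤ 1) :
    0 ≤ m := by
  by_contra hm
  have h1 := one_lt_zpow_of_neg₀ (zero_lt_iff.2 ha0) ha1 (not_le.1 hm)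
  exact absurd h (not_le.2 h1)

/-! ### The core estimate -/

variable {K1 : Type*} [Field K1] [Algebra K1 M]

/-- Core estimate: `θ` has valuation "prime to `p`" relative to the discretely valued subfield
`K1`, `z = P(θ)` with `deg P < p` is integral, and `s` is a ring endomorphism fixing `K1` which
moves `θ ^ k` by at most `δ * v θ ^ k`.  Then `v (s z - z) ^ p ≤ δ ^ p * v π`. -/
theorem core {p : ℕ} (hp : p.Prime) (π : K1)
    (hπ0 : v (algebraMap K1 M π) ≠ 0) (hπ1 : v (algebraMap K1 M π) < 1)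
    (hdisc : ∀ c : K1, c ≠ 0 → ∃ n : ℤ, v (algebraMap K1 M c) = v (algebraMap K1 M π) ^ n)
    (θ : M) (m : ℤ) (hm : ¬ (p : ℤ) ∣ m) (hθ : v θ ^ p = v (algebraMap K1 M π) ^ m)
    (s : M →+* M) (hsK : ∀ c : K1, s (algebraMap K1 M c) = algebraMap K1 M c) (δ : Γ₀)
    (hδ : ∀ k : ℕ, 1 ≤ k → k < p → v (s θ ^ k - θ ^ k) ≤ δ * v θ ^ k)
    (P : K1[X]) (hP : P.natDegree < p) (hz1 : v (aeval θ P) ≤ 1) :
    v (s (aeval θ P) - aeval θ P) ^ p ≤ δ ^ p * v (algebraMap K1 M π) := by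
  have hw0 : 0 < v (algebraMap K1 M π) := zero_lt_iff.2 hπ0
  have hp0 : p ≠ 0 := hp.ne_zero
  have hpp : Prime (p : ℤ) := Nat.prime_iff_prime_int.1 hp
  have hsum : aeval θ P = ∑ k ∈ range p, algebraMap K1 M (P.coeff k) * θ ^ k := by
    rw [aeval_eq_sum_range' hP]
    exact Finset.sum_congr rfl fun k _ => Algebra.smul_def _ _
  -- valuations of the terms, to the power `p`
  have hval : ∀ k : ℕ, P.coeff k ≠ 0 → ∃ n : ℤ,
      v (algebraMap K1 M (P.coeff k) * θ ^ k) ^ p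
        = v (algebraMap K1 M π) ^ ((p : ℤ) * n + m * k) := by
    intro k hk
    obtain ⟨n, hn⟩ := hdisc _ hk
    refine ⟨n, ?_⟩
    calc v (algebraMap K1 M (P.coeff k) * θ ^ k) ^ p
        = v (algebraMap K1 M (P.coeff k)) ^ p * (v θ ^ p) ^ k := by
          rw [v.map_mul, v.map_pow, mul_pow, ← pow_mul, ← pow_mul, mul_comm k p]
      _ = (v (algebraMap K1 M π) ^ n) ^ (p : ℤ) * (v (algebraMap K1 M π) ^ m) ^ (k : ℤ) := by
          rw [hn, hθ, zpow_natCast, zpow_natCast]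
      _ = v (algebraMap K1 M π) ^ ((p : ℤ) * n + m * k) := by
          rw [← zpow_mul, ← zpow_mul, ← zpow_add₀ hπ0, mul_comm n]
  -- the terms have pairwise distinct valuations
  have hdist : ∀ i ∈ range p, ∀ j ∈ range p, i ≠ j →
      algebraMap K1 M (P.coeff i) * θ ^ i ≠ 0 →
      v (algebraMap K1 M (P.coeff i) * θ ^ i) ≠ v (algebraMap K1 M (P.coeff j) * θ ^ j) := by
    intro i hi j hj hij hfi heq
    have hci : P.coeff i ≠ 0 := by
      rintro h; apply hfi; rw [h, map_zero, zero_mul]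
    have hfj : algebraMap K1 M (P.coeff j) * θ ^ j ≠ 0 := by
      rw [← v.ne_zero_iff, ← heq, v.ne_zero_iff]; exact hfi
    have hcj : P.coeff j ≠ 0 := by
      rintro h; apply hfj; rw [h, map_zero, zero_mul]
    obtain ⟨n, hn⟩ := hval i hci
    obtain ⟨n', hn'⟩ := hval j hcj
    rw [heq, hn'] at hn
    have h1 := zpow_right_injective₀ hw0 hπ1.ne hn
    have hdvd : (p : ℤ) ∣ m * ((i : ℤ) - j) := ⟨n' - n, by linarith⟩
    rcases hpp.dvd_or_dvd hdvd with h | h
    · exact hm h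
    · rw [Finset.mem_range] at hi hj
      have h2 := Int.eq_zero_of_abs_lt_dvd h (by rw [abs_lt]; constructor <;> omega)
      apply hij; omega
  have hle : ∀ k ∈ range p, v (algebraMap K1 M (P.coeff k) * θ ^ k) ≤ 1 := by
    intro k hk
    refine (le_v_sum_of_distinct v _ (fun k => algebraMap K1 M (P.coeff k) * θ ^ k) hdist k hk).trans
      ?_
    rw [← hsum]; exact hz1
  have hle' : ∀ k ∈ range p, 1 ≤ k →
      v (algebraMap K1 M (P.coeff k) * θ ^ k) ^ p ≤ v (algebraMap K1 M π) := by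
    intro k hk hk1
    by_cases hc : P.coeff k = 0
    · rw [hc, map_zero, zero_mul, map_zero, zero_pow hp0]; exact zero_le
    · obtain ⟨n, hn⟩ := hval k hc
      have h1 : v (algebraMap K1 M π) ^ ((p : ℤ) * n + m * k) ≤ 1 := by
        rw [← hn]; exact pow_le_one' (hle k hk) p
      have h2 : 0 ≤ (p : ℤ) * n + m * k := zpow_nonneg_of_le_one hπ0 hπ1 h1
      have h3 : (p : ℤ) * n + m * k ≠ 0 := by
        intro h0
        have hd : (p : ℤ) ∣ m * k := ⟨-n, by linarith⟩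
        rcases hpp.dvd_or_dvd hd with h | h
        · exact hm h
        · rw [Finset.mem_range] at hk
          have h4 := Int.le_of_dvd (by omega) h
          omega
      have h4 : 1 ≤ (p : ℤ) * n + m * k := by omega
      rw [hn]
      calc v (algebraMap K1 M π) ^ ((p : ℤ) * n + m * k)
          ≤ v (algebraMap K1 M π) ^ (1 : ℤ) := zpow_le_zpow_right_of_le_one₀ hw0 hπ1.le h4
        _ = v (algebraMap K1 M π) := zpow_one _
  have hs : s (aeval θ P) - aeval θ P
      = ∑ k ∈ range p, algebraMap K1 M (P.coeff k) * (s θ ^ k - θ ^ k) := by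
    rw [hsum, map_sum, ← Finset.sum_sub_distrib]
    apply Finset.sum_congr rfl
    intro k _
    rw [map_mul, map_pow, hsK]; ring
  rw [hs]
  obtain ⟨k₀, hk₀, hmax⟩ := Finset.exists_max_image (range p)
    (fun k => v (algebraMap K1 M (P.coeff k) * (s θ ^ k - θ ^ k)))
    ⟨0, Finset.mem_range.2 hp.pos⟩
  have h1 : v (∑ k ∈ range p, algebraMap K1 M (P.coeff k) * (s θ ^ k - θ ^ k))
      ≤ v (algebraMap K1 M (P.coeff k₀) * (s θ ^ k₀ - θ ^ k₀)) := v.map_sum_le hmax
  refine (pow_le_pow_left' h1 p).trans ?_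
  rcases Nat.eq_zero_or_pos k₀ with h0 | hpos
  · rw [h0, pow_zero, pow_zero, sub_self, mul_zero, map_zero, zero_pow hp0]; exact zero_le
  · have h2 : v (algebraMap K1 M (P.coeff k₀) * (s θ ^ k₀ - θ ^ k₀))
        ≤ δ * v (algebraMap K1 M (P.coeff k₀) * θ ^ k₀) := by
      rw [v.map_mul, v.map_mul, v.map_pow]
      calc v (algebraMap K1 M (P.coeff k₀)) * v (s θ ^ k₀ - θ ^ k₀)
          ≤ v (algebraMap K1 M (P.coeff k₀)) * (δ * v θ ^ k₀) :=
            mul_le_mul' le_rfl (hδ k₀ hpos (Finset.mem_range.1 hk₀))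
        _ = δ * (v (algebraMap K1 M (P.coeff k₀)) * v θ ^ k₀) := by ac_rfl
    calc v (algebraMap K1 M (P.coeff k₀) * (s θ ^ k₀ - θ ^ k₀)) ^ p
        ≤ (δ * v (algebraMap K1 M (P.coeff k₀) * θ ^ k₀)) ^ p := pow_le_pow_left' h2 p
      _ = δ ^ p * v (algebraMap K1 M (P.coeff k₀) * θ ^ k₀) ^ p := mul_pow _ _ _
      _ ≤ δ ^ p * v (algebraMap K1 M π) := mul_le_mul' le_rfl (hle' k₀ hk₀ hpos)

/-! ### Case N1: the valuation of `a` is prime to `p` -/

theorem v_eq_one_of_pow_eq_one {x : M} {n : ℕ} (hn : n ≠ 0) (h : x ^ n = 1) : v x = 1 := by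
  have h1 : v x ^ n = 1 := by rw [← v.map_pow, h, v.map_one]
  exact (pow_eq_one_iff_of_nonneg zero_le hn).1 h1

/-- **Kummer break, case N1** (`v a` prime to `p`; break `p e1/(p-1)`): for every integral
`z = P(α)`, `v (s z - z) ^ p ≤ v (ζ - 1) ^ p * v π`. -/
theorem break_of_val_prime {p : ℕ} (hp : p.Prime) (π : K1)
    (hπ0 : v (algebraMap K1 M π) ≠ 0) (hπ1 : v (algebraMap K1 M π) < 1)
    (hdisc : ∀ c : K1, c ≠ 0 → ∃ n : ℤ, v (algebraMap K1 M c) = v (algebraMap K1 M π) ^ n)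
    (a ζ : K1) (α : M) (hα : α ^ p = algebraMap K1 M a) (j : ℤ) (hj : ¬ (p : ℤ) ∣ j)
    (ha : v (algebraMap K1 M a) = v (algebraMap K1 M π) ^ j) (hζ : ζ ^ p = 1)
    (s : M →+* M) (hsK : ∀ c : K1, s (algebraMap K1 M c) = algebraMap K1 M c)
    (hsα : s α = algebraMap K1 M ζ * α)
    (P : K1[X]) (hP : P.natDegree < p) (hz1 : v (aeval α P) ≤ 1) :
    v (s (aeval α P) - aeval α P) ^ p
      ≤ v (algebraMap K1 M ζ - 1) ^ p * v (algebraMap K1 M π) := by
  have hζ1 : v (algebraMap K1 M ζ) = 1 :=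
    v_eq_one_of_pow_eq_one v hp.ne_zero (by rw [← map_pow, hζ, map_one])
  refine core v hp π hπ0 hπ1 hdisc α j hj (by rw [← v.map_pow, hα, ha]) s hsK _ ?_ P hP hz1
  intro k hk1 _
  obtain ⟨k', rfl⟩ := Nat.exists_eq_succ_of_ne_zero (Nat.one_le_iff_ne_zero.1 hk1)
  have h1 : s α ^ (k' + 1) - α ^ (k' + 1)
      = (algebraMap K1 M ζ ^ (k' + 1) - 1 ^ (k' + 1)) * α ^ (k' + 1) := by
    rw [hsα]; ring
  rw [h1, v.map_mul, v.map_pow]
  refine mul_le_mul' ?_ le_rfl
  refine (v_pow_succ_sub_pow_succ_le v _ _ k').trans ?_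
  rw [hζ1, v.map_one, max_self, one_pow, mul_one]

/-! ### Case N2: `a = 1 + π ^ i * u`, `u` a unit, `p ∤ i` -/

theorem iterate_apply_gen (s : M →+* M) (ζ : K1)
    (hsK : ∀ c : K1, s (algebraMap K1 M c) = algebraMap K1 M c) (α : M)
    (hsα : s α = algebraMap K1 M ζ * α) (k : ℕ) :
    s^[k] α = algebraMap K1 M ζ ^ k * α := by
  induction k with
  | zero => simp
  | succ k ih =>
    rw [Function.iterate_succ_apply', ih, map_mul, map_pow, hsK, hsα, pow_succ]; ring

theorem v_iterate (s : M →+* M) (hsv : ∀ z, v (s z) = v z) (k : ℕ) (z : M) :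
    v (s^[k] z) = v z := by
  induction k with
  | zero => rfl
  | succ k ih => rw [Function.iterate_succ_apply', hsv, ih]

theorem iterate_sub_one (s : M →+* M) (k : ℕ) (z : M) : s^[k] (z - 1) = s^[k] z - 1 := by
  induction k with
  | zero => rfl
  | succ k ih => rw [Function.iterate_succ_apply', ih, map_sub, map_one,
      ← Function.iterate_succ_apply' s k z]

/-- `v (α - 1) ^ p = v (1 - α ^ p)` when the conjugates `ζ ^ k α` of `α` are obtained by an
isometric endomorphism. -/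
theorem v_sub_one_pow {p : ℕ} (hp : p.Prime) (ζ : K1) (hζ : IsPrimitiveRoot ζ p) (α : M)
    (s : M →+* M) (hsK : ∀ c : K1, s (algebraMap K1 M c) = algebraMap K1 M c)
    (hsα : s α = algebraMap K1 M ζ * α) (hsv : ∀ z, v (s z) = v z) :
    v (α - 1) ^ p = v (1 - α ^ p) := by
  have hζ' : IsPrimitiveRoot (algebraMap K1 M ζ) p :=
    hζ.map_of_injective (algebraMap K1 M).injective
  have h1 := X_pow_sub_C_eq_prod hζ' hp.pos (rfl : α ^ p = α ^ p)
  have h2 := congrArg (Polynomial.eval (1 : M)) h1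
  rw [eval_sub, eval_pow, eval_X, eval_C, one_pow, eval_prod] at h2
  rw [h2, map_prod]
  have h3 : ∀ k ∈ range p, v (eval 1 (X - C (algebraMap K1 M ζ ^ k * α))) = v (α - 1) := by
    intro k _
    rw [eval_sub, eval_X, eval_C, ← iterate_apply_gen s ζ hsK α hsα k, ← v.map_neg, neg_sub,
      ← iterate_sub_one, v_iterate v s hsv]
  rw [Finset.prod_congr rfl h3, Finset.prod_const, Finset.card_range]

/-- **Kummer break, case N2** (`a = 1 + π ^ i u`, `u` a unit, `p ∤ i`; break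
`t = p e1/(p-1) - i`): for every integral `z = P(α)`,
`v (s z - z) ^ p * v π ^ i ≤ v (ζ - 1) ^ p * v π`. -/
theorem break_of_unit_level {p : ℕ} (hp : p.Prime) (π : K1)
    (hπ0 : v (algebraMap K1 M π) ≠ 0) (hπ1 : v (algebraMap K1 M π) < 1)
    (hdisc : ∀ c : K1, c ≠ 0 → ∃ n : ℤ, v (algebraMap K1 M c) = v (algebraMap K1 M π) ^ n)
    (u ζ : K1) (i : ℕ) (hi : ¬ p ∣ i) (hu : v (algebraMap K1 M u) = 1)
    (hζ : IsPrimitiveRoot ζ p)
    (α : M) (hα : α ^ p = 1 + algebraMap K1 M π ^ i * algebraMap K1 M u)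
    (s : M →+* M) (hsK : ∀ c : K1, s (algebraMap K1 M c) = algebraMap K1 M c)
    (hsα : s α = algebraMap K1 M ζ * α) (hsv : ∀ z, v (s z) = v z)
    (P : K1[X]) (hP : P.natDegree < p) (hz1 : v (aeval α P) ≤ 1) :
    v (s (aeval α P) - aeval α P) ^ p * v (algebraMap K1 M π) ^ i
      ≤ v (algebraMap K1 M ζ - 1) ^ p * v (algebraMap K1 M π) := by
  have hp0 : p ≠ 0 := hp.ne_zero
  have hi0 : i ≠ 0 := by rintro rfl; exact hi (dvd_zero p)
  have hwi : v (algebraMap K1 M π) ^ i ≠ 0 := pow_ne_zero _ hπ0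
  -- `v α = 1`
  have hlt : v (algebraMap K1 M π ^ i * algebraMap K1 M u) < 1 := by
    rw [v.map_mul, v.map_pow, hu, mul_one]
    exact pow_lt_one₀ zero_le hπ1 hi0
  have hα1 : v α = 1 := by
    have h1 : v α ^ p = 1 := by rw [← v.map_pow, hα, v.map_one_add_of_lt hlt]
    exact (pow_eq_one_iff_of_nonneg zero_le hp0).1 h1
  -- `v β ^ p = v π ^ i`
  have hβ : v (α - 1) ^ p = v (algebraMap K1 M π) ^ i := by
    rw [v_sub_one_pow v hp ζ hζ α s hsK hsα hsv, hα, ← v.map_neg, neg_sub, add_sub_cancel_left,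
      v.map_mul, v.map_pow, hu, mul_one]
  have hβ0 : v (α - 1) ≠ 0 := by
    intro h0; rw [h0, zero_pow hp0] at hβ; exact hwi hβ.symm
  -- change of variable
  have hQ : (P.comp (X + C 1)).natDegree < p := by
    refine lt_of_le_of_lt natDegree_comp_le ?_
    rw [natDegree_X_add_C, mul_one]; exact hP
  have hQe : aeval (α - 1) (P.comp (X + C 1)) = aeval α P := by
    rw [aeval_comp]; congr 1; simp
  have hsβ : s (α - 1) - (α - 1) = (algebraMap K1 M ζ - 1) * α := by
    rw [map_sub, map_one, hsα]; ring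
  have key := core v hp π hπ0 hπ1 hdisc (α - 1) (i : ℤ)
    (by rw [Int.natCast_dvd_natCast]; exact hi) (by rw [hβ, zpow_natCast]) s hsK
    (v (algebraMap K1 M ζ - 1) / v (α - 1)) ?_ (P.comp (X + C 1)) hQ (by rw [hQe]; exact hz1)
  · rw [hQe, div_pow, hβ] at key
    calc v (s (aeval α P) - aeval α P) ^ p * v (algebraMap K1 M π) ^ i
        ≤ v (algebraMap K1 M ζ - 1) ^ p / v (algebraMap K1 M π) ^ i * v (algebraMap K1 M π)
            * v (algebraMap K1 M π) ^ i := mul_le_mul' key le_rfl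
      _ = v (algebraMap K1 M ζ - 1) ^ p * v (algebraMap K1 M π) := by
          rw [div_mul_eq_mul_div, div_mul_cancel₀ _ hwi]
  · intro k hk1 _
    obtain ⟨k', rfl⟩ := Nat.exists_eq_succ_of_ne_zero (Nat.one_le_iff_ne_zero.1 hk1)
    refine (v_pow_succ_sub_pow_succ_le v _ _ k').trans ?_
    rw [hsv, max_self, hsβ, v.map_mul, hα1, mul_one, pow_succ, div_mul_eq_mul_div,
      mul_div_assoc, mul_div_cancel_right₀ _ hβ0]

/-! ### From membership in `Algebra.adjoin K1 {α}` to polynomial representations -/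

theorem exists_poly_of_mem_adjoin {p : ℕ} (hp0 : p ≠ 0) (a : K1) (α : M)
    (hα : α ^ p = algebraMap K1 M a) (z : M) (hz : z ∈ Algebra.adjoin K1 {α}) :
    ∃ P : K1[X], P.natDegree < p ∧ aeval α P = z := by
  rw [Algebra.adjoin_singleton_eq_range_aeval] at hz
  obtain ⟨f, hf⟩ := hz
  have hg : (X ^ p - C a : K1[X]).Monic := monic_X_pow_sub_C a hp0
  have hg1 : (X ^ p - C a : K1[X]) ≠ 1 := by
    intro h1
    have := congrArg natDegree h1
    rw [natDegree_X_pow_sub_C, natDegree_one] at this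
    exact hp0 this
  refine ⟨f %ₘ (X ^ p - C a), ?_, ?_⟩
  · have := natDegree_modByMonic_lt f hg hg1
    rwa [natDegree_X_pow_sub_C] at this
  · rw [← hf]
    apply aeval_modByMonic_eq_self_of_root
    rw [map_sub, map_pow, aeval_X, aeval_C, hα, sub_self]

/-! ### Group action forms -/

section Action

variable {G : Type*} [Group G] [MulSemiringAction G M]

theorem smul_aeval_eq (σ : G) (hσK : ∀ c : K1, σ • algebraMap K1 M c = algebraMap K1 M c)
    (α : M) (P : K1[X]) : σ • aeval α P = aeval (σ • α) P := by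
  induction P using Polynomial.induction_on' with
  | add f g hf hg => rw [map_add, map_add, smul_add, hf, hg]
  | monomial n c =>
    rw [aeval_monomial, aeval_monomial, smul_mul', smul_pow', hσK]

variable {v}

/-- Every `σ` fixing `K1` multiplies the Kummer generator by a power of `ζ`. -/
theorem exists_pow_smul_eq {p : ℕ} (hp : p.Prime) (ζ : K1) (hζ : IsPrimitiveRoot ζ p) (a : K1)
    (α : M) (hα : α ^ p = algebraMap K1 M a) (hα0 : α ≠ 0)
    (σ : G) (hσK : ∀ c : K1, σ • algebraMap K1 M c = algebraMap K1 M c) :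
    ∃ k < p, σ • α = algebraMap K1 M (ζ ^ k) * α := by
  have : NeZero p := ⟨hp.ne_zero⟩
  have hζ' : IsPrimitiveRoot (algebraMap K1 M ζ) p :=
    hζ.map_of_injective (algebraMap K1 M).injective
  have h1 : (σ • α / α) ^ p = 1 := by
    rw [div_pow, ← smul_pow', hα, hσK, div_self]
    rw [← hα]; exact pow_ne_zero _ hα0
  obtain ⟨k, hk, hk2⟩ := hζ'.eq_pow_of_pow_eq_one h1
  refine ⟨k, hk, ?_⟩
  rw [map_pow, hk2, div_mul_cancel₀ _ hα0]

/-- **Kummer break, case N1, group action form**: for every `σ` fixing `K1` and every integral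
`y ∈ K1[α]`, `d(σ) ^ p ≤ v (ζ - 1) ^ p * v π`. -/
theorem lowerIndex_pow_le_of_val_prime (hv : Invariant v G) {p : ℕ} (hp : p.Prime) (π : K1)
    (hπ0 : v (algebraMap K1 M π) ≠ 0) (hπ1 : v (algebraMap K1 M π) < 1)
    (hdisc : ∀ c : K1, c ≠ 0 → ∃ n : ℤ, v (algebraMap K1 M c) = v (algebraMap K1 M π) ^ n)
    (a ζ : K1) (hζ : IsPrimitiveRoot ζ p) (α : M) (hα : α ^ p = algebraMap K1 M a)
    (j : ℤ) (hj : ¬ (p : ℤ) ∣ j) (ha : v (algebraMap K1 M a) = v (algebraMap K1 M π) ^ j)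
    (σ : G) (hσK : ∀ c : K1, σ • algebraMap K1 M c = algebraMap K1 M c)
    (y : M) (hyα : y ∈ Algebra.adjoin K1 {α}) (hy : v y ≤ 1) :
    (lowerIndexOf hv y).d σ ^ p ≤ v (algebraMap K1 M ζ - 1) ^ p * v (algebraMap K1 M π) := by
  have hp0 : p ≠ 0 := hp.ne_zero
  have hζ1 : v (algebraMap K1 M ζ) = 1 :=
    v_eq_one_of_pow_eq_one v hp0 (by rw [← map_pow, hζ.pow_eq_one, map_one])
  have ha0 : algebraMap K1 M a ≠ 0 := by
    rw [← v.ne_zero_iff, ha]; exact zpow_ne_zero _ hπ0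
  have hα0 : α ≠ 0 := by
    rintro rfl; rw [zero_pow hp0] at hα; exact ha0 hα.symm
  obtain ⟨k, hk, hσα⟩ := exists_pow_smul_eq hp ζ hζ a α hα hα0 σ hσK
  obtain ⟨P, hP, rfl⟩ := exists_poly_of_mem_adjoin hp0 a α hα y hyα
  rw [lowerIndexOf_d]
  refine (break_of_val_prime v hp π hπ0 hπ1 hdisc a (ζ ^ k) α hα j hj ha
    (by rw [← pow_mul, mul_comm, pow_mul, hζ.pow_eq_one, one_pow])
    (MulSemiringAction.toRingHom G M σ) hσK hσα P hP hy).trans ?_
  refine mul_le_mul' (pow_le_pow_left' ?_ p) le_rfl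
  rcases Nat.eq_zero_or_pos k with rfl | hkpos
  · rw [pow_zero, map_one, sub_self, map_zero]; exact zero_le
  · obtain ⟨k', rfl⟩ := Nat.exists_eq_succ_of_ne_zero hkpos.ne'
    have h2 := v_pow_succ_sub_pow_succ_le v (algebraMap K1 M ζ) 1 k'
    rw [one_pow, hζ1, v.map_one, max_self, one_pow, mul_one] at h2
    rwa [map_pow]

/-- **Kummer break, case N2, group action form**: for every `σ` fixing `K1` and every integral
`y ∈ K1[α]`, `d(σ) ^ p * v π ^ i ≤ v (ζ - 1) ^ p * v π`. -/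
theorem lowerIndex_pow_le_of_unit_level (hv : Invariant v G) {p : ℕ} (hp : p.Prime) (π : K1)
    (hπ0 : v (algebraMap K1 M π) ≠ 0) (hπ1 : v (algebraMap K1 M π) < 1)
    (hdisc : ∀ c : K1, c ≠ 0 → ∃ n : ℤ, v (algebraMap K1 M c) = v (algebraMap K1 M π) ^ n)
    (u ζ : K1) (i : ℕ) (hi : ¬ p ∣ i) (hu : v (algebraMap K1 M u) = 1)
    (hζ : IsPrimitiveRoot ζ p)
    (α : M) (hα : α ^ p = 1 + algebraMap K1 M π ^ i * algebraMap K1 M u)
    (σ : G) (hσK : ∀ c : K1, σ • algebraMap K1 M c = algebraMap K1 M c)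
    (y : M) (hyα : y ∈ Algebra.adjoin K1 {α}) (hy : v y ≤ 1) :
    (lowerIndexOf hv y).d σ ^ p * v (algebraMap K1 M π) ^ i
      ≤ v (algebraMap K1 M ζ - 1) ^ p * v (algebraMap K1 M π) := by
  have hp0 : p ≠ 0 := hp.ne_zero
  have hζ1 : v (algebraMap K1 M ζ) = 1 :=
    v_eq_one_of_pow_eq_one v hp0 (by rw [← map_pow, hζ.pow_eq_one, map_one])
  have hα' : α ^ p = algebraMap K1 M (1 + π ^ i * u) := by
    rw [hα, map_add, map_one, map_mul, map_pow]
  have hi0 : i ≠ 0 := by rintro rfl; exact hi (dvd_zero p)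
  have hlt : v (algebraMap K1 M π ^ i * algebraMap K1 M u) < 1 := by
    rw [v.map_mul, v.map_pow, hu, mul_one]
    exact pow_lt_one₀ zero_le hπ1 hi0
  have hα0 : α ≠ 0 := by
    rintro rfl
    rw [zero_pow hp0] at hα
    have := v.map_one_add_of_lt hlt
    rw [← hα, map_zero] at this
    exact zero_ne_one this
  obtain ⟨k, hk, hσα⟩ := exists_pow_smul_eq hp ζ hζ _ α hα' hα0 σ hσK
  obtain ⟨P, hP, rfl⟩ := exists_poly_of_mem_adjoin hp0 _ α hα' y hyα
  rw [lowerIndexOf_d]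
  rcases Nat.eq_zero_or_pos k with rfl | hkpos
  · rw [pow_zero, map_one, one_mul] at hσα
    rw [smul_aeval_eq σ hσK, hσα, sub_self, map_zero, zero_pow hp0, zero_mul]
    exact zero_le
  · have hζk : IsPrimitiveRoot (ζ ^ k) p :=
      hζ.pow_of_coprime k (Nat.coprime_of_lt_prime hkpos.ne' hk hp).symm
    refine (break_of_unit_level v hp π hπ0 hπ1 hdisc u (ζ ^ k) i hi hu hζk α hα
      (MulSemiringAction.toRingHom G M σ) hσK hσα (fun z => hv σ z) P hP hy).trans ?_
    refine mul_le_mul' (pow_le_pow_left' ?_ p) le_rfl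
    obtain ⟨k', rfl⟩ := Nat.exists_eq_succ_of_ne_zero hkpos.ne'
    have h2 := v_pow_succ_sub_pow_succ_le v (algebraMap K1 M ζ) 1 k'
    rw [one_pow, hζ1, v.map_one, max_self, one_pow, mul_one] at h2
    rwa [map_pow]

end Action

/-! ### Consequence for the upper index of a quotient group of order `p` -/

section Upper

variable {G' : Type*} [Group G'] [Fintype G']

/-- In a group of order `p` whose lower indices all satisfy `d ^ p ≤ B`, the upper indices
are `≤ B`. -/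
theorem upper_le_of_card (D' : LowerIndex G' Γ₀) {p : ℕ} (hp0 : p ≠ 0)
    (hcard : Fintype.card G' = p) {B : Γ₀} (hB : ∀ σ' : G', D'.d σ' ^ p ≤ B) (σ' : G') :
    D'.upper σ' ≤ B := by
  have h1 : (D'.upper σ') ^ p ≤ B ^ p := by
    unfold LowerIndex.upper LowerIndex.phi LowerIndex.phiOn
    rw [← Finset.prod_pow]
    calc ∏ τ : G', (max (D'.d τ) (D'.d σ')) ^ p ≤ ∏ _τ : G', B := by
          refine Finset.prod_le_prod' (fun τ _ => ?_)
          rcases max_cases (D'.d τ) (D'.d σ') with h | h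
          · rw [h.1]; exact hB τ
          · rw [h.1]; exact hB σ'
      _ = B ^ p := by rw [Finset.prod_const, Finset.card_univ, hcard]
  exact (pow_le_pow_iff_left₀ zero_le zero_le hp0).1 h1

variable {G : Type*} [Group G] [Fintype G] [MulSemiringAction G M] {v}

/-- **Kummer break, case N1, upper index form.**  `G` acts on `M` fixing `K1`, `q : G → G'` is
onto a group of order `p`, `y ∈ K1[α]` is integral and fixed by `ker q`.  Then every upper index
of the induced lower index function on `G'` is `≤ v (ζ - 1) ^ p * v π`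
(additively: `≥ p/(p-1) + 1/e1`). -/
theorem upper_quot_le_of_val_prime (hv : Invariant v G) {p : ℕ} (hp : p.Prime) (π : K1)
    (hπ0 : v (algebraMap K1 M π) ≠ 0) (hπ1 : v (algebraMap K1 M π) < 1)
    (hdisc : ∀ c : K1, c ≠ 0 → ∃ n : ℤ, v (algebraMap K1 M c) = v (algebraMap K1 M π) ^ n)
    (a ζ : K1) (hζ : IsPrimitiveRoot ζ p) (α : M) (hα : α ^ p = algebraMap K1 M a)
    (j : ℤ) (hj : ¬ (p : ℤ) ∣ j) (ha : v (algebraMap K1 M a) = v (algebraMap K1 M π) ^ j)
    (hGK : ∀ (σ : G) (c : K1), σ • algebraMap K1 M c = algebraMap K1 M c)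
    (q : G →* G') (hq : Function.Surjective q) (hcard : Fintype.card G' = p)
    (y : M) (hyfix : ∀ τ, q τ = 1 → τ • y = y) (hyα : y ∈ Algebra.adjoin K1 {α}) (hy : v y ≤ 1)
    (σ' : G') :
    (lowerIndexQuot hv q hq y hyfix).upper σ'
      ≤ v (algebraMap K1 M ζ - 1) ^ p * v (algebraMap K1 M π) := by
  refine upper_le_of_card _ hp.ne_zero hcard (fun τ' => ?_) σ'
  obtain ⟨τ, rfl⟩ := hq τ'
  rw [lowerIndexQuot_d]
  exact lowerIndex_pow_le_of_val_prime hv hp π hπ0 hπ1 hdisc a ζ hζ α hα j hj ha τ (hGK τ) y hyα hy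

/-- **Kummer break, case N2, upper index form.**  Same setting with
`α ^ p = 1 + π ^ i u`, `u` a unit, `p ∤ i`: every upper index `U` of the induced lower index
function on `G'` satisfies `U * v π ^ i ≤ v (ζ - 1) ^ p * v π`
(additively, `v p = 1`: `U ≥ p/(p-1) + 1/e1 - i/e1 = (t+1)/e1`, `t = p e1/(p-1) - i`). -/
theorem upper_quot_le_of_unit_level (hv : Invariant v G) {p : ℕ} (hp : p.Prime) (π : K1)
    (hπ0 : v (algebraMap K1 M π) ≠ 0) (hπ1 : v (algebraMap K1 M π) < 1)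
    (hdisc : ∀ c : K1, c ≠ 0 → ∃ n : ℤ, v (algebraMap K1 M c) = v (algebraMap K1 M π) ^ n)
    (u ζ : K1) (i : ℕ) (hi : ¬ p ∣ i) (hu : v (algebraMap K1 M u) = 1)
    (hζ : IsPrimitiveRoot ζ p)
    (α : M) (hα : α ^ p = 1 + algebraMap K1 M π ^ i * algebraMap K1 M u)
    (hGK : ∀ (σ : G) (c : K1), σ • algebraMap K1 M c = algebraMap K1 M c)
    (q : G →* G') (hq : Function.Surjective q) (hcard : Fintype.card G' = p)
    (y : M) (hyfix : ∀ τ, q τ = 1 → τ • y = y) (hyα : y ∈ Algebra.adjoin K1 {α}) (hy : v y ≤ 1)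
    (σ' : G') :
    (lowerIndexQuot hv q hq y hyfix).upper σ' * v (algebraMap K1 M π) ^ i
      ≤ v (algebraMap K1 M ζ - 1) ^ p * v (algebraMap K1 M π) := by
  have hwi : 0 < v (algebraMap K1 M π) ^ i := zero_lt_iff.2 (pow_ne_zero _ hπ0)
  rw [← le_div_iff₀ hwi]
  refine upper_le_of_card _ hp.ne_zero hcard (fun τ' => ?_) σ'
  obtain ⟨τ, rfl⟩ := hq τ'
  rw [lowerIndexQuot_d, le_div_iff₀ hwi]
  exact lowerIndex_pow_le_of_unit_level hv hp π hπ0 hπ1 hdisc u ζ i hi hu hζ α hα τ (hGK τ) y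
    hyα hy

end Upper

end Fermat.Agent.TW.Ram.KummerBreak90
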