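/-
Restriction of totally ramified data to a subgroup (helper73, TW/WP7 chapter RAM):
if `L / L^G` is totally ramified then so is `L / L^B` for every subgroup `B ≤ G`.
-/
import Fermat.Agent.TW.Ram.Depth73

set_option autoImplicit false

namespace Fermat.Agent.TW.Ram.Restrict73

open scoped BigOperators
open Fermat.Agent.TW.Ram.ValSum73 Fermat.Agent.TW.Ram.TotRam73 Fermat.Agent.TW.Ram.Depth73

variable {G L : Type*} [Group G] [Finite G] [Field L] [MulSemiringAction G L]

variable (D : TRData G L)

/-- product over the `G`-orbit of `x` -/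
theorem w_of_stabilizer (x : L) (hx0 : x ≠ 0) :
    ∃ m : ℤ, D.w x = (((Nat.card (MulAction.stabilizer G x) : ℤ) * m : ℤ) : WithTop ℤ) := by
  classical
  obtain ⟨n, hn⟩ := exists_int_of_ne_zero D.w hx0
  have hfin : (MulAction.orbit G x).Finite := Set.finite_range fun σ : G => σ • x
  set O : Finset L := hfin.toFinset with hO
  set z : L := ∏ y ∈ O, y with hz
  have hmemO : ∀ y, y ∈ O ↔ y ∈ MulAction.orbit G x := fun y => hfin.mem_toFinset
  have hfix : ∀ σ : G, σ • z = z := by
    intro σ
    rw [hz, Finset.smul_prod']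
    refine Finset.prod_bij (fun y _ => σ • y) ?_ ?_ ?_ ?_
    · intro y hy
      rw [hmemO] at hy ⊢
      obtain ⟨τ, rfl⟩ := hy
      exact ⟨σ * τ, mul_smul _ _ _⟩
    · intro a _ b _ hab
      exact smul_left_cancel σ hab
    · intro y hy
      rw [hmemO] at hy
      obtain ⟨τ, rfl⟩ := hy
      refine ⟨σ⁻¹ • τ • x, ?_, by rw [smul_inv_smul]⟩
      rw [hmemO]
      exact ⟨σ⁻¹ * τ, mul_smul _ _ _⟩
    · intro _ _; rfl
  have hwy : ∀ y ∈ O, D.w y = (n : WithTop ℤ) := by
    intro y hy
    rw [hmemO] at hy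
    obtain ⟨τ, rfl⟩ := hy
    show D.w (τ • x) = _
    rw [D.w_smul, hn]
  have hz0 : z ≠ 0 := by
    rw [hz, Finset.prod_ne_zero_iff]
    intro y hy h0
    have := hwy y hy
    rw [h0, AddValuation.map_zero] at this
    exact WithTop.top_ne_coe this
  have hwz : D.w z = (((O.card : ℤ) * n : ℤ) : WithTop ℤ) := by
    rw [hz]
    have : D.w (∏ y ∈ O, y) = ∑ y ∈ O, D.w y := by
      induction O using Finset.induction_on with
      | empty => simp
      | insert a s ha ih => rw [Finset.prod_insert ha, Finset.sum_insert ha, AddValuation.map_mul, ih]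
    rw [this, Finset.sum_congr rfl hwy, Finset.sum_const, ← WithTop.coe_nsmul, nsmul_eq_mul]
  obtain ⟨m, hm⟩ := D.w_fixed z hfix hz0
  rw [hwz] at hm
  have hm' : (O.card : ℤ) * n = (Nat.card G : ℤ) * m := by exact_mod_cast hm
  have hcard : O.card * Nat.card (MulAction.stabilizer G x) = Nat.card G := by
    have h1 := MulAction.index_stabilizer G x
    rw [Set.ncard_eq_toFinset_card (MulAction.orbit G x) hfin] at h1
    rw [hO, ← h1]
    exact Subgroup.index_mul_card _
  have hOpos : 0 < (O.card : ℤ) := by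
    have : 0 < O.card := by
      rw [Finset.card_pos]
      exact ⟨x, (hmemO x).mpr (MulAction.mem_orbit_self x)⟩
    exact_mod_cast this
  refine ⟨m, ?_⟩
  rw [hn]
  have : n = (Nat.card (MulAction.stabilizer G x) : ℤ) * m := by
    have h2 : (O.card : ℤ) * n = (O.card : ℤ) * ((Nat.card (MulAction.stabilizer G x) : ℤ) * m) := by
      rw [hm', ← hcard]; push_cast; ring
    exact mul_left_cancel₀ hOpos.ne' h2
  exact_mod_cast this

/-- every nonzero `B`-fixed element has valuation divisible by `|B|`. -/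
theorem w_fixed_subgroup (B : Subgroup G) (x : L) (hx : ∀ b : B, b • x = x) (hx0 : x ≠ 0) :
    ∃ m : ℤ, D.w x = (((Nat.card B : ℤ) * m : ℤ) : WithTop ℤ) := by
  obtain ⟨m, hm⟩ := w_of_stabilizer D x hx0
  have hle : B ≤ MulAction.stabilizer G x := fun b hb => hx ⟨b, hb⟩
  obtain ⟨k, hk⟩ := Subgroup.card_dvd_of_le hle
  refine ⟨k * m, ?_⟩
  rw [hm, hk]
  push_cast
  rw [mul_assoc]

/-- restriction of totally ramified data to a subgroup -/
def restrict (B : Subgroup G) : TRData B L where
  w := D.w
  w_smul := fun b x => D.w_smul (b : G) x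
  π := D.π
  w_π := D.w_π
  w_fixed := fun x hx hx0 => w_fixed_subgroup D B x hx hx0

@[simp] theorem restrict_w (B : Subgroup G) : (restrict D B).w = D.w := rfl
@[simp] theorem restrict_π (B : Subgroup G) : (restrict D B).π = D.π := rfl

theorem restrict_depth (B : Subgroup G) (b : B) :
    TRDepth.depth (restrict D B) b = TRDepth.depth D (b : G) := rfl

end Fermat.Agent.TW.Ram.Restrict73
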